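import Fermat.Agent.S32.h41_FlatSubquot
import Fermat.Agent.S19.h38_TopDefs
import Fermat.Agent.GAL.h65_S31Levels

/-!
# S32, row (R4) TOP GLUE (helper14)

`h14_S32_of` : `ρ.IsFlatAt p` from

* Hopf orders on the groups `J₀(N)[p^n]` (the S19 orders, in the shape exported by the S19 top:
  `Submodule.torsionBy ℤ (JZero N) ((p : ℤ) ^ n)` with the action `h38_torsAction`), and
* for every cofinite ideal `I`, a Galois module `B` embedded in a finite power of `J₀(N)[p^n]`
  (in the `h65_tors` / `h65_torsRep` shape of the GAL layer) and mapping onto `V ⧸ I V`.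
-/

set_option autoImplicit false

noncomputable section

namespace Fermat.Agent.S32

open Fermat.Agent.S19 Fermat.Agent.GAL ModularCurve

local notation "Qb" => AlgebraicClosure ℚ
local notation "Γℚ" => (AlgebraicClosure ℚ ≃ₐ[ℚ] AlgebraicClosure ℚ)

/-- the identification of the two shapes of the `p^n`-torsion of `J₀(N)` -/
def h14_torsHom (N : ℕ) (p n : ℕ) :
    ↥(h65_tors (JZero N) (p ^ n)) →+ ↥(Submodule.torsionBy ℤ (JZero N) ((p : ℤ) ^ n)) where
  toFun x := ⟨(x : JZero N), by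
    rw [Submodule.mem_torsionBy_iff]
    have hx : (p ^ n) • (x : JZero N) = 0 := x.2
    have h1 : ((p : ℤ) ^ n) = ((p ^ n : ℕ) : ℤ) := by push_cast; rfl
    rw [h1, natCast_zsmul]
    exact hx⟩
  map_zero' := rfl
  map_add' _ _ := rfl

theorem h14_torsHom_coe (N : ℕ) (p n : ℕ) (x : ↥(h65_tors (JZero N) (p ^ n))) :
    ((h14_torsHom N p n x : ↥(Submodule.torsionBy ℤ (JZero N) ((p : ℤ) ^ n))) : JZero N) =
      (x : JZero N) := rfl

theorem h14_torsHom_injective (N : ℕ) (p n : ℕ) : Function.Injective (h14_torsHom N p n) := by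
  intro x y hxy
  apply Subtype.ext
  have := congrArg (fun z : ↥(Submodule.torsionBy ℤ (JZero N) ((p : ℤ) ^ n)) => (z : JZero N)) hxy
  exact this

theorem h14_torsHom_smul (N : ℕ) (p n : ℕ) (σ : Γℚ) (x : ↥(h65_tors (JZero N) (p ^ n))) :
    h14_torsHom N p n (h65_torsRep Γℚ (JZero N) (p ^ n) σ x) = σ • h14_torsHom N p n x :=
  rfl

/-- **S32 (R4), TOP GLUE.** -/
theorem h14_S32_of {T : Type} [CommRing T] [IsLocalRing T] (ρ : GaloisRepAdic T) (p : ℕ)
    [Fact p.Prime] (N : ℕ) [NeZero N] (hfin : Finite (IsLocalRing.ResidueField T))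
    (hord : ∀ n : ℕ, ∃ H0 : Subalgebra (GaloisRep.ratLocalizedAt p)
      (↥(Submodule.torsionBy ℤ (JZero N) ((p : ℤ) ^ n)) → Qb), h26_IsHopfOrder p H0)
    (hfinM : ∀ n : ℕ, Finite ↥(Submodule.torsionBy ℤ (JZero N) ((p : ℤ) ^ n)))
    (hsub : ∀ I : Ideal T, Finite (T ⧸ I) →
      ∃ (n : ℕ) (X : Type) (_ : Finite X) (B : Type) (_ : AddCommGroup B)
        (rB : Γℚ →* AddMonoid.End B)
        (i : B →+ (X → ↥(h65_tors (JZero N) (p ^ n))))
        (π : B →+ (ρ.V ⧸ (I • (⊤ : Submodule T ρ.V)))),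
        Function.Injective i ∧
        (∀ g b x, i (rB g b) x = h65_torsRep Γℚ (JZero N) (p ^ n) g (i b x)) ∧
        Function.Surjective π ∧ ∀ g b, π (rB g b) = ρ.levelAction I g (π b)) :
    ρ.IsFlatAt p := by
  refine h41_isFlatAt_of_subquot ρ p hfin fun I hI => ?_
  obtain ⟨n, X, hX, B, hB, rB, i, π, hi, hiσ, hπ, hπσ⟩ := hsub I hI
  obtain ⟨H0, hH0⟩ := hord n
  refine ⟨↥(Submodule.torsionBy ℤ (JZero N) ((p : ℤ) ^ n)), X, B, inferInstance, hfinM n, hX, hB,
    (fun (σ : Γℚ) (x : ↥(Submodule.torsionBy ℤ (JZero N) ((p : ℤ) ^ n))) => σ • x), H0,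
    (fun (σ : Γℚ) (b : B) => rB σ b), (AddMonoidHom.compLeft (h14_torsHom N p n) X).comp i, π,
    h41_raw_of_isHopfOrder hH0, ?_, ?_, hπ, hπσ⟩
  · intro b b' hbb'
    apply hi
    funext x
    apply h14_torsHom_injective N p n
    exact congrFun hbb' x
  · intro σ b x
    show h14_torsHom N p n (i (rB σ b) x) = σ • h14_torsHom N p n (i b x)
    rw [hiσ σ b x, h14_torsHom_smul]

end Fermat.Agent.S32

end
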