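import Fermat.Agent.S32.h91_Subquot
import Fermat.Agent.S32.h14_Top
import Fermat.Agent.S35.h29_ThetaCanon
import Fermat.Agent.S37.h60_Final
import Fermat.Agent.GAL.h65_S31Levels
import Fermat.Agent.S19.h54_Fin
import Fermat.Agent.S19.h38_Order

/-!
# S32, top level (helper91): flatness at `p` from the S19 coordinates

* `h91_S32_subquot` : `V / I V` is a Galois subquotient of a finite power of `J₀(N)[p ^ n]`
  (`h91_subquot_of_levels` for the explicit level data of the GAL layer: THETA in canonical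
  form, the reduction interface of S37, weak Chebotarev, finiteness of torsion);
* `h91_S32_of_chart_coords` : the frozen statement S32 from the chart-level coordinates of the
  S19 blocks GEOM + EXIST (`h38_ChartCoords`).
-/

set_option autoImplicit false
set_option linter.style.haveILetI false
set_option synthInstance.maxHeartbeats 400000

open CongruenceSubgroup ModularCurve

namespace Fermat.Agent.S32

open Fermat.Agent.GAL Fermat.Agent.S16 Fermat.Agent.S24 Fermat.Agent.S35 Fermat.Agent.S19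

local notation "Qb" => AlgebraicClosure ℚ
local notation "Γℚ" => (AlgebraicClosure ℚ ≃ₐ[ℚ] AlgebraicClosure ℚ)

section main

variable {p : ℕ} {N : ℕ} [NeZero N] {S : Finset ℕ}
  {𝒪 : Type} [CommRing 𝒪] [IsDomain 𝒪] [IsDiscreteValuationRing 𝒪]
  [IsAdicComplete (IsLocalRing.maximalIdeal 𝒪) 𝒪]
  {θ : CuspForm.heckeAlgebra N 2 (↑S : Set ℕ) →+* IsLocalRing.ResidueField 𝒪}
  {T : Type} [CommRing T] [IsLocalRing T] [IsNoetherianRing T]
  [IsAdicComplete (IsLocalRing.maximalIdeal T) T] [Algebra 𝒪 T] [IsLocalHom (algebraMap 𝒪 T)]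
  [Module.Finite 𝒪 T] [Module.Free 𝒪 T]

set_option maxHeartbeats 1600000 in
/-- **`V / I V` is a Galois subquotient of a finite power of `J₀(N)[p ^ n]`.** -/
theorem h91_S32_subquot (hp : p.Prime) (hp2 : p ≠ 2)
    (hp𝒪 : (p : 𝒪) ∈ IsLocalRing.maximalIdeal 𝒪) (hpS : p ∈ S)
    (hNS : ∀ q : ℕ, q.Prime → q ∣ N → q ∈ S)
    (H : CuspForm.HeckeGaloisRepDatum N (↑S : Set ℕ) 𝒪 θ T)
    (I : Ideal T) (hI : Finite (T ⧸ I)) :
    ∃ (n : ℕ) (X : Type) (_ : Finite X) (B : Type) (_ : AddCommGroup B)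
      (rB : Γℚ →* AddMonoid.End B)
      (i : B →+ (X → ↥(h65_tors (JZero N) (p ^ n))))
      (π : B →+ (H.ρ.V ⧸ (I • (⊤ : Submodule T H.ρ.V)))),
      Function.Injective i ∧
      (∀ g b x, i (rB g b) x = h65_torsRep Γℚ (JZero N) (p ^ n) g (i b x)) ∧
      Function.Surjective π ∧ ∀ g b, π (rB g b) = H.ρ.levelAction I g (π b) := by
  classical
  haveI : Fact p.Prime := ⟨hp⟩
  have hNS' : ∀ q : ℕ, q.Prime → q ∣ N → q ∈ (↑S : Set ℕ) :=
    fun q hq hqN => Finset.mem_coe.2 (hNS q hq hqN)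
  -- the canonical THETA family
  have hθ : ∀ n : ℕ, ∃ Θ : gal_Hpe N (p ^ n) →+ JZero N, Function.Injective Θ ∧
      (∀ (ℓ : ℕ) [Fact ℓ.Prime] (hℓN : ¬ ℓ ∣ N), ¬ ℓ ∣ p ^ n →
        ∀ χ χ' : gal_Hpe N (p ^ n),
          (χ' : Additive (Gamma0 N) →+ ZMod (p ^ n)) =
              h30_heckeT N ℓ hℓN (χ : Additive (Gamma0 N) →+ ZMod (p ^ n)) →
            heckeOperatorBar N ⟨ℓ, Fact.out⟩ (Θ χ) = Θ χ') ∧
      ∀ ψ : gal_Hpe N (p ^ n),
        gal_R N (p ^ n) h78_iota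
          (gal_chi (p ^ n) (ψ : Additive (Gamma0 N) →+ ZMod (p ^ n))) (Θ ψ) := by
    intro n
    have : NeZero (p ^ n) := ⟨pow_ne_zero n hp.ne_zero⟩
    exact h29_theta_canon N (p ^ n)
  choose Θ hΘinj hΘhecke hΘR using hθ
  -- the explicit level data
  let Mn : ℕ → Type := fun n => ↥(h65_tors (JZero N) (p ^ n))
  let qM : ∀ n, h65_Lam N →+ Mn n := fun n => h29_qLev p N n (Θ n)
  let r : ∀ n, Γℚ →* AddMonoid.End (Mn n) :=
    fun n => h65_torsRep Γℚ (JZero N) (p ^ n)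
  let tM : ∀ n, Nat.Primes → Mn n →+ Mn n :=
    fun n ℓ => h65_torsEnd (p ^ n) (heckeOperatorBar N ℓ).toAddMonoidHom
  have hlevel : ∀ n : ℕ, h31_IsLevel p N S (h65_iota N (↑S : Set ℕ) hNS') n (qM n) (r n)
      (tM n) := fun n =>
    h29_isLevel hp hpS hNS' (Θ n) (hΘinj n) (hΘhecke n)
      (fun ℓ hℓ h A hA => Fermat.Agent.S37.h60_redData N p ℓ hℓ h A hA)
  have hfinM : ∀ n, Finite (Mn n) := fun n =>
    h54_finite_torsion N (p ^ n) (pow_pos hp.pos n)
  exact h91_subquot_of_levels hp hp2 hp𝒪 hpS hNS H (h65_iota N (↑S : Set ℕ) hNS')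
    (h65_iota_injective N (↑S : Set ℕ) hNS') Mn hfinM qM r tM hlevel h65_wcheb I hI

/-- **S32 from the chart-level coordinates of S19.** -/
theorem h91_S32_of_chart_coords (hcoords : h38_ChartCoords)
    [Finite (IsLocalRing.ResidueField 𝒪)]
    (hp : p.Prime) (hp2 : p ≠ 2) (hp𝒪 : (p : 𝒪) ∈ IsLocalRing.maximalIdeal 𝒪) (hpN : ¬ p ∣ N)
    (hpS : p ∈ S) (hNS : ∀ q : ℕ, q.Prime → q ∣ N → q ∈ S)
    (H : CuspForm.HeckeGaloisRepDatum N (↑S : Set ℕ) 𝒪 θ T) :
    H.ρ.IsFlatAt p := by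
  haveI : Fact p.Prime := ⟨hp⟩
  have hfin : Finite (IsLocalRing.ResidueField T) := by
    refine Finite.of_surjective (IsLocalRing.ResidueField.map (algebraMap 𝒪 T)) ?_
    intro y
    obtain ⟨x, hx⟩ := H.residue_surjective y
    exact ⟨IsLocalRing.residue 𝒪 x, by rw [IsLocalRing.ResidueField.map_residue]; exact hx⟩
  have hpow : ∀ n : ℕ, ((p : ℤ) ^ n) ≠ 0 := fun n =>
    pow_ne_zero _ (Int.natCast_ne_zero.mpr hp.ne_zero)
  exact h14_S32_of H.ρ p N hfin (fun n => h38_exists_order hcoords N p hpN n)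
    (fun n => h38_finite_tors N _ (hpow n))
    (fun I hI => h91_S32_subquot hp hp2 hp𝒪 hpS hNS H I hI)

end main

end Fermat.Agent.S32
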