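import Fermat.Agent.S19.h21_HopfGalois

/-!
# S32 project: the last step (owner helper21)

A Hopf order on a finite Galois module `G` together with an equivariant additive isomorphism
`G ≃+ V ⧸ I V` gives the clause of the frozen `GaloisRepAdic.IsFlatAt` for the ideal `I`.

* `h21_levelDMA ρ I` : the Galois action on `V ⧸ I V` given by `ρ.levelAction I`, as a
  `DistribMulAction` (not an instance);
* `h21_flat_clause` : raw-hypothesis form on any finite additive group `G` with `c : G ≃+ V ⧸ I V`;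
* `h21_flat_clause_of_isHopfOrder` : the same from `h26_IsHopfOrder`;
* `h21_isFlatAt_of_hopfOrders` : assembled `IsFlatAt`.
-/

set_option autoImplicit false

noncomputable section

namespace Fermat.Agent.S32

open Fermat.Agent.S19

local notation "Qb" => AlgebraicClosure ℚ
local notation "Γℚ" => (AlgebraicClosure ℚ ≃ₐ[ℚ] AlgebraicClosure ℚ)

variable {A : Type} [CommRing A] [IsLocalRing A]

theorem h21_levelAction_mk (ρ : GaloisRepAdic A) (I : Ideal A) (σ : Γℚ) (v : ρ.V) :
    ρ.levelAction I σ (Submodule.Quotient.mk v) = Submodule.Quotient.mk (ρ.ρ σ v) := rfl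

theorem h21_levelAction_one (ρ : GaloisRepAdic A) (I : Ideal A)
    (x : ρ.V ⧸ (I • (⊤ : Submodule A ρ.V))) : ρ.levelAction I 1 x = x := by
  induction x using Submodule.Quotient.induction_on with
  | _ v => rw [h21_levelAction_mk, map_one]; rfl

theorem h21_levelAction_mul (ρ : GaloisRepAdic A) (I : Ideal A) (σ τ : Γℚ)
    (x : ρ.V ⧸ (I • (⊤ : Submodule A ρ.V))) :
    ρ.levelAction I (σ * τ) x = ρ.levelAction I σ (ρ.levelAction I τ x) := by
  induction x using Submodule.Quotient.induction_on with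
  | _ v => rw [h21_levelAction_mk, h21_levelAction_mk, h21_levelAction_mk, map_mul]; rfl

/-- The Galois action on `V ⧸ I V` through `levelAction` (not an instance; use `letI`). -/
@[reducible] def h21_levelDMA (ρ : GaloisRepAdic A) (I : Ideal A) :
    DistribMulAction Γℚ (ρ.V ⧸ (I • (⊤ : Submodule A ρ.V))) where
  smul σ x := ρ.levelAction I σ x
  one_smul x := h21_levelAction_one ρ I x
  mul_smul σ τ x := h21_levelAction_mul ρ I σ τ x
  smul_zero σ := map_zero (ρ.levelAction I σ)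
  smul_add σ x y := map_add (ρ.levelAction I σ) x y

theorem h21_levelDMA_smul (ρ : GaloisRepAdic A) (I : Ideal A) (σ : Γℚ)
    (x : ρ.V ⧸ (I • (⊤ : Submodule A ρ.V))) :
    (letI := h21_levelDMA ρ I; σ • x) = ρ.levelAction I σ x := rfl

/-- **Flat clause, raw form**: a Hopf order `H` on a finite additive group `G`, an additive
isomorphism `c : G ≃+ V ⧸ I V` and equivariance of `H` for the action transported through `c`
give the clause of `IsFlatAt` for `I`. -/
theorem h21_flat_clause (ρ : GaloisRepAdic A) (p : ℕ) [Fact p.Prime] (I : Ideal A)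
    {G : Type} [AddCommGroup G] [Finite G]
    (H : Subalgebra (GaloisRep.ratLocalizedAt p) (G → Qb))
    (c : G ≃+ (ρ.V ⧸ (I • (⊤ : Submodule A ρ.V))))
    (hequiv : ∀ h ∈ H, ∀ (σ : Γℚ) (x : G), h (c.symm (ρ.levelAction I σ (c x))) = σ (h x))
    (hfg : (Subalgebra.toSubmodule H).FG)
    (hspan : Submodule.span Qb (H : Set (G → Qb)) = ⊤)
    (hcounit : ∀ h ∈ H, ∃ r : GaloisRep.ratLocalizedAt p, h 0 = algebraMap ℚ Qb (r : ℚ))
    (hcomul : ∀ h ∈ H, (fun q : G × G => h (q.1 + q.2)) ∈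
      Submodule.span (GaloisRep.ratLocalizedAt p)
        {f : G × G → Qb | ∃ h₁ ∈ H, ∃ h₂ ∈ H, f = fun q => h₁ q.1 * h₂ q.2}) :
    ∃ (H' : Type) (_ : CommRing H') (_ : HopfAlgebra (GaloisRep.ratLocalizedAt p) H'),
      Module.Finite (GaloisRep.ratLocalizedAt p) H' ∧
      Module.Flat (GaloisRep.ratLocalizedAt p) H' ∧
      Coalgebra.IsCocomm (GaloisRep.ratLocalizedAt p) H' ∧
      ∃ e : WithConv (H' →ₐ[GaloisRep.ratLocalizedAt p] AlgebraicClosure ℚ) ≃
          (ρ.V ⧸ (I • (⊤ : Submodule A ρ.V))),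
        (∀ f g : WithConv (H' →ₐ[GaloisRep.ratLocalizedAt p] AlgebraicClosure ℚ),
          e (f * g) = e f + e g) ∧
        ∀ (σ : AlgebraicClosure ℚ ≃ₐ[ℚ] AlgebraicClosure ℚ)
          (f g : WithConv (H' →ₐ[GaloisRep.ratLocalizedAt p] AlgebraicClosure ℚ)),
          (∀ h : H', g h = σ (f h)) → e g = ρ.levelAction I σ (e f) := by
  obtain ⟨H', i1, i2, h1, h2, h3, e, he, heq⟩ := h21_hopf_of_order p H
    (fun σ => ⟨fun x => c.symm (ρ.levelAction I σ (c x)), fun h hh x => hequiv h hh σ x⟩)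
    hfg hspan hcounit hcomul
  refine ⟨H', i1, i2, h1, h2, h3, e.trans c.toEquiv, ?_, ?_⟩
  · intro f g
    change c (e (f * g)) = c (e f) + c (e g)
    rw [he f g, map_add]
  · intro σ f g hfg
    have h := heq σ (fun x => c.symm (ρ.levelAction I σ (c x)))
      (fun h hh x => hequiv h hh σ x) f g hfg
    change c (e g) = ρ.levelAction I σ (c (e f))
    rw [h, AddEquiv.apply_symm_apply]

/-- **Flat clause from a Hopf order**: `G` a finite Galois module with a Hopf order `H`
(`h26_IsHopfOrder`), `c : G ≃+ V ⧸ I V` intertwining the Galois action with `levelAction`. -/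
theorem h21_flat_clause_of_isHopfOrder (ρ : GaloisRepAdic A) (p : ℕ) [Fact p.Prime]
    (I : Ideal A) {G : Type} [AddCommGroup G] [Finite G] [DistribMulAction Γℚ G]
    (H : Subalgebra (GaloisRep.ratLocalizedAt p) (G → Qb)) (hH : h26_IsHopfOrder p H)
    (c : G ≃+ (ρ.V ⧸ (I • (⊤ : Submodule A ρ.V))))
    (hc : ∀ (σ : Γℚ) (x : G), c (σ • x) = ρ.levelAction I σ (c x)) :
    ∃ (H' : Type) (_ : CommRing H') (_ : HopfAlgebra (GaloisRep.ratLocalizedAt p) H'),
      Module.Finite (GaloisRep.ratLocalizedAt p) H' ∧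
      Module.Flat (GaloisRep.ratLocalizedAt p) H' ∧
      Coalgebra.IsCocomm (GaloisRep.ratLocalizedAt p) H' ∧
      ∃ e : WithConv (H' →ₐ[GaloisRep.ratLocalizedAt p] AlgebraicClosure ℚ) ≃
          (ρ.V ⧸ (I • (⊤ : Submodule A ρ.V))),
        (∀ f g : WithConv (H' →ₐ[GaloisRep.ratLocalizedAt p] AlgebraicClosure ℚ),
          e (f * g) = e f + e g) ∧
        ∀ (σ : AlgebraicClosure ℚ ≃ₐ[ℚ] AlgebraicClosure ℚ)
          (f g : WithConv (H' →ₐ[GaloisRep.ratLocalizedAt p] AlgebraicClosure ℚ)),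
          (∀ h : H', g h = σ (f h)) → e g = ρ.levelAction I σ (e f) := by
  refine h21_flat_clause ρ p I H c ?_ hH.fg hH.span hH.counit hH.comul
  intro h hh σ x
  rw [← hc σ x, AddEquiv.symm_apply_apply]
  exact hH.equiv h hh σ x

/-- **Flat clause from a Hopf order on `V ⧸ I V` itself**, for the action `h21_levelDMA`. -/
theorem h21_flat_clause_of_level (ρ : GaloisRepAdic A) (p : ℕ) [Fact p.Prime]
    (I : Ideal A) [Finite (ρ.V ⧸ (I • (⊤ : Submodule A ρ.V)))]
    (H : Subalgebra (GaloisRep.ratLocalizedAt p) ((ρ.V ⧸ (I • (⊤ : Submodule A ρ.V))) → Qb))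
    (hH : letI := h21_levelDMA ρ I; h26_IsHopfOrder p H) :
    ∃ (H' : Type) (_ : CommRing H') (_ : HopfAlgebra (GaloisRep.ratLocalizedAt p) H'),
      Module.Finite (GaloisRep.ratLocalizedAt p) H' ∧
      Module.Flat (GaloisRep.ratLocalizedAt p) H' ∧
      Coalgebra.IsCocomm (GaloisRep.ratLocalizedAt p) H' ∧
      ∃ e : WithConv (H' →ₐ[GaloisRep.ratLocalizedAt p] AlgebraicClosure ℚ) ≃
          (ρ.V ⧸ (I • (⊤ : Submodule A ρ.V))),
        (∀ f g : WithConv (H' →ₐ[GaloisRep.ratLocalizedAt p] AlgebraicClosure ℚ),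
          e (f * g) = e f + e g) ∧
        ∀ (σ : AlgebraicClosure ℚ ≃ₐ[ℚ] AlgebraicClosure ℚ)
          (f g : WithConv (H' →ₐ[GaloisRep.ratLocalizedAt p] AlgebraicClosure ℚ)),
          (∀ h : H', g h = σ (f h)) → e g = ρ.levelAction I σ (e f) := by
  let _ := h21_levelDMA ρ I
  exact h21_flat_clause_of_isHopfOrder ρ p I H hH (AddEquiv.refl _) (fun σ x => rfl)

/-- **Assembly of `IsFlatAt`**: finite residue field, and for every ideal `I` of finite index a
finite Galois module `G` with a Hopf order and an equivariant isomorphism `G ≃+ V ⧸ I V`. -/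
theorem h21_isFlatAt_of_hopfOrders (ρ : GaloisRepAdic A) (p : ℕ) [Fact p.Prime]
    (hfin : Finite (IsLocalRing.ResidueField A))
    (h : ∀ I : Ideal A, Finite (A ⧸ I) →
      ∃ (G : Type) (_ : AddCommGroup G) (_ : Finite G) (_ : DistribMulAction Γℚ G)
        (H : Subalgebra (GaloisRep.ratLocalizedAt p) (G → Qb))
        (c : G ≃+ (ρ.V ⧸ (I • (⊤ : Submodule A ρ.V)))),
        h26_IsHopfOrder p H ∧ ∀ (σ : Γℚ) (x : G), c (σ • x) = ρ.levelAction I σ (c x)) :
    ρ.IsFlatAt p := by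
  refine ⟨hfin, fun I hI => ?_⟩
  obtain ⟨G, i1, i2, i3, H, c, hH, hc⟩ := h I hI
  exact h21_flat_clause_of_isHopfOrder ρ p I H hH c hc

/-- `V ⧸ I V` is finite when `A ⧸ I` is. -/
theorem h21_finite_level (ρ : GaloisRepAdic A) (I : Ideal A) [Finite (A ⧸ I)] :
    Finite (ρ.V ⧸ (I • (⊤ : Submodule A ρ.V))) := by
  have : Module.Finite (A ⧸ I) (ρ.V ⧸ (I • (⊤ : Submodule A ρ.V))) :=
    Module.Finite.of_restrictScalars_finite A _ _
  exact Module.finite_of_finite (A ⧸ I)

end Fermat.Agent.S32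

end
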