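import Mathlib
import Fermat.Prelude.Def_GaloisRep_Flat
import Fermat.Agent.GAL.h65_TraceRigid

/-!
# S32, row R3 BASIS (written by helper54; statement = helper91's plan, verbatim)

`h21_level_basis` : for an adic representation `ρ` over a local ring `T` with absolutely
irreducible residual representation and ANY ideal `I`, the level `V / I V` has a matrix form:
a monoid homomorphism `ρbar : Γℚ → M₂(T / I)` (the matrices of `ρ` in a basis, reduced mod `I`)
and an additive isomorphism `c : (T / I)² ≃ V / I V` such that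

* `tr ρbar(g) = tr ρ(g) mod I`,
* the `T / I`-span of the `ρbar(g)` is all of `M₂(T / I)`,
* `c` intertwines `ρbar(g)` with the level action of `g`.
-/

set_option autoImplicit false

noncomputable section

namespace Fermat.Agent.S32

open Fermat.Agent.GAL

local notation "Γℚ" => (AlgebraicClosure ℚ ≃ₐ[ℚ] AlgebraicClosure ℚ)

section

variable {T : Type} [CommRing T] {V : Type} [AddCommGroup V] [Module T V]

/-- The coordinates of a vector in a basis, reduced modulo `I`. -/
def h54_coordMod (b : Module.Basis (Fin 2) T V) (I : Ideal T) : V →ₗ[T] (Fin 2 → T ⧸ I) :=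
  (LinearMap.pi fun i => (Ideal.Quotient.mkₐ T I).toLinearMap ∘ₗ LinearMap.proj i) ∘ₗ
    b.equivFun.toLinearMap

theorem h54_coordMod_apply (b : Module.Basis (Fin 2) T V) (I : Ideal T) (v : V) (i : Fin 2) :
    h54_coordMod b I v i = Ideal.Quotient.mk I (b.repr v i) := rfl

theorem h54_coordMod_surjective (b : Module.Basis (Fin 2) T V) (I : Ideal T) :
    Function.Surjective (h54_coordMod b I) := by
  intro w
  choose t ht using fun i => Ideal.Quotient.mk_surjective (w i)
  refine ⟨b.equivFun.symm t, funext fun i => ?_⟩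
  rw [h54_coordMod_apply, ← ht i]
  congr 1
  have h := b.equivFun.apply_symm_apply t
  exact congrFun h i

theorem h54_ker_coordMod (b : Module.Basis (Fin 2) T V) (I : Ideal T) :
    LinearMap.ker (h54_coordMod b I) = I • (⊤ : Submodule T V) := by
  ext v
  rw [LinearMap.mem_ker]
  constructor
  · intro h
    have hi : ∀ i, b.repr v i ∈ I := by
      intro i
      have h1 := congrFun h i
      rw [h54_coordMod_apply] at h1
      exact Ideal.Quotient.eq_zero_iff_mem.mp h1
    rw [← b.sum_repr v]
    exact Submodule.sum_mem _ fun i _ => Submodule.smul_mem_smul (hi i) Submodule.mem_top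
  · intro h
    refine Submodule.smul_induction_on h (fun r hr m _ => ?_) (fun x y hx hy => ?_)
    · rw [map_smul]
      funext i
      rw [Pi.smul_apply, h54_coordMod_apply, Pi.zero_apply, Algebra.smul_def,
        Ideal.Quotient.algebraMap_eq, Ideal.Quotient.eq_zero_iff_mem.mpr hr, zero_mul]
    · rw [map_add, hx, hy, add_zero]

/-- `V / I V ≃ (T / I)²` through a basis. -/
def h54_levelEquiv (b : Module.Basis (Fin 2) T V) (I : Ideal T) :
    (V ⧸ (I • (⊤ : Submodule T V))) ≃ₗ[T] (Fin 2 → T ⧸ I) :=
  (Submodule.quotEquivOfEq _ _ (h54_ker_coordMod b I).symm).trans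
    ((h54_coordMod b I).quotKerEquivOfSurjective (h54_coordMod_surjective b I))

theorem h54_levelEquiv_mk (b : Module.Basis (Fin 2) T V) (I : Ideal T) (v : V) :
    h54_levelEquiv b I (Submodule.Quotient.mk v) = h54_coordMod b I v := rfl

end

/-- **R3 BASIS.** -/
theorem h21_level_basis {T : Type} [CommRing T] [IsLocalRing T] (ρ : GaloisRepAdic T)
    (habs : ρ.residual.IsAbsolutelyIrreducible) (I : Ideal T) :
    ∃ (ρbar : Γℚ →* Matrix (Fin 2) (Fin 2) (T ⧸ I))
      (c : (Fin 2 → T ⧸ I) ≃+ (ρ.V ⧸ (I • (⊤ : Submodule T ρ.V)))),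
      (∀ g, (ρbar g).trace = Ideal.Quotient.mk I (LinearMap.trace T ρ.V (ρ.ρ g))) ∧
      Submodule.span (T ⧸ I) (Set.range ρbar) = ⊤ ∧
      ∀ g v, c ((ρbar g).mulVec v) = ρ.levelAction I g (c v) := by
  classical
  let b : Module.Basis (Fin 2) T ρ.V := Module.finBasisOfFinrankEq T ρ.V ρ.finrank_eq
  let ρbar : Γℚ →* Matrix (Fin 2) (Fin 2) (T ⧸ I) :=
    ((Ideal.Quotient.mk I).mapMatrix :
        Matrix (Fin 2) (Fin 2) T →+* Matrix (Fin 2) (Fin 2) (T ⧸ I)).toMonoidHom.comp
      (((LinearMap.toMatrixAlgEquiv b :
        Module.End T ρ.V ≃ₐ[T] Matrix (Fin 2) (Fin 2) T) : Module.End T ρ.V →* _).comp ρ.ρ)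
  have hρbar : ∀ g, ρbar g = (LinearMap.toMatrix b b (ρ.ρ g)).map (Ideal.Quotient.mk I) :=
    fun g => rfl
  refine ⟨ρbar, (h54_levelEquiv b I).symm.toAddEquiv, fun g => ?_, ?_, fun g v => ?_⟩
  · rw [hρbar, LinearMap.trace_eq_matrix_trace T b]
    exact (AddMonoidHom.map_trace (Ideal.Quotient.mk I).toAddMonoidHom _).symm
  · rw [eq_top_iff]
    intro N _
    -- lift `N` entrywise
    choose t ht using fun i j => Ideal.Quotient.mk_surjective (N i j)
    have hN : N = (Matrix.of t).map (Ideal.Quotient.mk I) := by
      ext i j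
      rw [Matrix.map_apply, Matrix.of_apply, ht]
    have hmem : (Matrix.of t : Matrix (Fin 2) (Fin 2) T) ∈
        Submodule.span T (Set.range fun g => LinearMap.toMatrix b b (ρ.ρ g)) := by
      rw [h65_span_matrix_eq_top ρ habs b]
      exact Submodule.mem_top
    have key : ∀ X : Matrix (Fin 2) (Fin 2) T,
        X ∈ Submodule.span T (Set.range fun g => LinearMap.toMatrix b b (ρ.ρ g)) →
        X.map (Ideal.Quotient.mk I) ∈ Submodule.span (T ⧸ I) (Set.range ρbar) := by
      intro X hX
      induction hX using Submodule.span_induction with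
      | mem x hx =>
        obtain ⟨g, rfl⟩ := hx
        exact Submodule.subset_span ⟨g, rfl⟩
      | zero =>
        have h0 : (0 : Matrix (Fin 2) (Fin 2) T).map (Ideal.Quotient.mk I) = 0 := by
          ext i j
          simp
        rw [h0]
        exact Submodule.zero_mem _
      | add x y _ _ hx hy =>
        have h1 : (x + y).map (Ideal.Quotient.mk I)
            = x.map (Ideal.Quotient.mk I) + y.map (Ideal.Quotient.mk I) := by
          ext i j
          simp
        rw [h1]
        exact Submodule.add_mem _ hx hy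
      | smul a x _ hx =>
        have h1 : (a • x).map (Ideal.Quotient.mk I)
            = Ideal.Quotient.mk I a • x.map (Ideal.Quotient.mk I) := by
          ext i j
          simp
        rw [h1]
        exact Submodule.smul_mem _ _ hx
    rw [hN]
    exact key _ hmem
  · apply (h54_levelEquiv b I).injective
    show h54_levelEquiv b I ((h54_levelEquiv b I).symm ((ρbar g).mulVec v))
      = h54_levelEquiv b I (ρ.levelAction I g ((h54_levelEquiv b I).symm v))
    rw [LinearEquiv.apply_symm_apply]
    obtain ⟨u, hu⟩ := Submodule.Quotient.mk_surjective _ ((h54_levelEquiv b I).symm v)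
    have hv : v = h54_coordMod b I u := by
      have h1 : h54_levelEquiv b I (Submodule.Quotient.mk u) = v := by
        rw [hu, LinearEquiv.apply_symm_apply]
      rw [← h1, h54_levelEquiv_mk]
    rw [← hu]
    have h2 : ρ.levelAction I g (Submodule.Quotient.mk u) = Submodule.Quotient.mk (ρ.ρ g u) :=
      rfl
    rw [h2, h54_levelEquiv_mk, hv]
    funext i
    rw [h54_coordMod_apply, hρbar, ← LinearMap.toMatrix_mulVec_repr b b (ρ.ρ g) u]
    simp only [Matrix.mulVec, dotProduct, Matrix.map_apply, h54_coordMod_apply, map_sum, map_mul]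

end Fermat.Agent.S32

end
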