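import Fermat.Agent.S19.h41_HopfRaw
import Fermat.Agent.S32.h21_FlatGlue

/-!
# S32 project (helper41): the flat clause from a subquotient of a power of a Hopf order

`W` a finite group with a Hopf order with respect to maps `actW σ` (raw form
`h41_IsHopfOrderRaw`), `B` a group with maps `actB σ` embedded compatibly in a finite power
`X → W`, and `π : B → V ⧸ I V` a surjective homomorphism intertwining `actB` with the Galois
action `ρ.levelAction I`. Then the clause of the frozen `GaloisRepAdic.IsFlatAt` holds for `I`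
(`h41_flat_clause_of_subquot`), and `ρ.IsFlatAt p` follows if this is available for every `I`
with `A ⧸ I` finite (`h41_isFlatAt_of_subquot`).
-/

set_option autoImplicit false

noncomputable section

namespace Fermat.Agent.S32

open Fermat.Agent.S19

local notation "Qb" => AlgebraicClosure ℚ
local notation "Γℚ" => (AlgebraicClosure ℚ ≃ₐ[ℚ] AlgebraicClosure ℚ)

variable {A : Type} [CommRing A] [IsLocalRing A]

/-- The clause of `IsFlatAt` for `I` from a raw Hopf order on `V ⧸ I V`. -/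
theorem h41_flat_clause_of_raw (ρ : GaloisRepAdic A) (p : ℕ) [Fact p.Prime] (I : Ideal A)
    [Finite (ρ.V ⧸ (I • (⊤ : Submodule A ρ.V)))]
    (H₂ : Subalgebra (GaloisRep.ratLocalizedAt p) ((ρ.V ⧸ (I • (⊤ : Submodule A ρ.V))) → Qb))
    (h : h41_IsHopfOrderRaw p (fun (σ : Γℚ) (x : ρ.V ⧸ (I • (⊤ : Submodule A ρ.V))) =>
      ρ.levelAction I σ x) H₂) :
    ∃ (H' : Type) (_ : CommRing H') (_ : HopfAlgebra (GaloisRep.ratLocalizedAt p) H'),
      Module.Finite (GaloisRep.ratLocalizedAt p) H' ∧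
      Module.Flat (GaloisRep.ratLocalizedAt p) H' ∧
      Coalgebra.IsCocomm (GaloisRep.ratLocalizedAt p) H' ∧
      ∃ e : WithConv (H' →ₐ[GaloisRep.ratLocalizedAt p] AlgebraicClosure ℚ) ≃
          (ρ.V ⧸ (I • (⊤ : Submodule A ρ.V))),
        (∀ f g : WithConv (H' →ₐ[GaloisRep.ratLocalizedAt p] AlgebraicClosure ℚ),
          e (f * g) = e f + e g) ∧
        ∀ (σ : AlgebraicClosure ℚ ≃ₐ[ℚ] AlgebraicClosure ℚ)
          (f g : WithConv (H' →ₐ[GaloisRep.ratLocalizedAt p] AlgebraicClosure ℚ)),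
          (∀ h : H', g h = σ (f h)) → e g = ρ.levelAction I σ (e f) :=
  h21_flat_clause ρ p I H₂ (AddEquiv.refl _) h.1 h.2.1 h.2.2.1 h.2.2.2.1 h.2.2.2.2

/-- The clause of `IsFlatAt` for `I` when `V ⧸ I V` is a Galois quotient of a Galois-stable
subgroup of a finite power of a finite Galois module with a Hopf order (raw form: no axioms on
the families of maps are assumed). -/
theorem h41_flat_clause_of_subquot (ρ : GaloisRepAdic A) (p : ℕ) [Fact p.Prime] (I : Ideal A)
    {W X B : Type} [AddCommGroup W] [Finite W] [Finite X] [AddCommGroup B]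
    (actW : Γℚ → W → W) (H : Subalgebra (GaloisRep.ratLocalizedAt p) (W → Qb))
    (hH : h41_IsHopfOrderRaw p actW H) (actB : Γℚ → B → B)
    (i : B →+ (X → W)) (hi : Function.Injective i)
    (hiσ : ∀ (σ : Γℚ) (b : B) (x : X), i (actB σ b) x = actW σ (i b x))
    (π : B →+ (ρ.V ⧸ (I • (⊤ : Submodule A ρ.V)))) (hπ : Function.Surjective π)
    (hπσ : ∀ (σ : Γℚ) (b : B), π (actB σ b) = ρ.levelAction I σ (π b)) :
    ∃ (H' : Type) (_ : CommRing H') (_ : HopfAlgebra (GaloisRep.ratLocalizedAt p) H'),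
      Module.Finite (GaloisRep.ratLocalizedAt p) H' ∧
      Module.Flat (GaloisRep.ratLocalizedAt p) H' ∧
      Coalgebra.IsCocomm (GaloisRep.ratLocalizedAt p) H' ∧
      ∃ e : WithConv (H' →ₐ[GaloisRep.ratLocalizedAt p] AlgebraicClosure ℚ) ≃
          (ρ.V ⧸ (I • (⊤ : Submodule A ρ.V))),
        (∀ f g : WithConv (H' →ₐ[GaloisRep.ratLocalizedAt p] AlgebraicClosure ℚ),
          e (f * g) = e f + e g) ∧
        ∀ (σ : AlgebraicClosure ℚ ≃ₐ[ℚ] AlgebraicClosure ℚ)
          (f g : WithConv (H' →ₐ[GaloisRep.ratLocalizedAt p] AlgebraicClosure ℚ)),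
          (∀ h : H', g h = σ (f h)) → e g = ρ.levelAction I σ (e f) := by
  have : Finite B := Finite.of_injective i hi
  have : Finite (ρ.V ⧸ (I • (⊤ : Submodule A ρ.V))) := Finite.of_surjective π hπ
  obtain ⟨H₂, hH₂⟩ := h41_hopfOrder_subquot_raw p actW H hH actB
    (fun (σ : Γℚ) (x : ρ.V ⧸ (I • (⊤ : Submodule A ρ.V))) => ρ.levelAction I σ x)
    i hi hiσ π hπ hπσ
  exact h41_flat_clause_of_raw ρ p I H₂ hH₂

/-- `IsFlatAt` from subquotients of powers of Hopf orders at every finite level. -/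
theorem h41_isFlatAt_of_subquot (ρ : GaloisRepAdic A) (p : ℕ) [Fact p.Prime]
    (hfin : Finite (IsLocalRing.ResidueField A))
    (h : ∀ I : Ideal A, Finite (A ⧸ I) →
      ∃ (W X B : Type) (_ : AddCommGroup W) (_ : Finite W) (_ : Finite X) (_ : AddCommGroup B)
        (actW : Γℚ → W → W) (H : Subalgebra (GaloisRep.ratLocalizedAt p) (W → Qb))
        (actB : Γℚ → B → B) (i : B →+ (X → W))
        (π : B →+ (ρ.V ⧸ (I • (⊤ : Submodule A ρ.V)))),
        h41_IsHopfOrderRaw p actW H ∧ Function.Injective i ∧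
        (∀ (σ : Γℚ) (b : B) (x : X), i (actB σ b) x = actW σ (i b x)) ∧
        Function.Surjective π ∧
        ∀ (σ : Γℚ) (b : B), π (actB σ b) = ρ.levelAction I σ (π b)) :
    ρ.IsFlatAt p := by
  refine ⟨hfin, fun I hI => ?_⟩
  obtain ⟨W, X, B, _, _, _, _, actW, H, actB, i, π, hH, hi, hiσ, hπ, hπσ⟩ := h I hI
  exact h41_flat_clause_of_subquot ρ p I actW H hH actB i hi hiσ π hπ hπσ

end Fermat.Agent.S32
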