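import Mathlib

/-!
# S32, algebra core (helper48): Cayley–Hamilton modules and trace descent

`h48_ch_core` (Mathlib only).  Let `G` be a group acting on a finite abelian group `W`, `R₀` a
commutative ring acting on `W` and commuting with `G`, `a : G → ℕ` a "character" on `W` and
`t : G → R₀` with `t g • w = g w + a g • g⁻¹ w`.  Let `A` be a finite local ring in which `2` is a
unit, `φ₀ : R₀ →+* A` a ring homomorphism killing the annihilator of `W`, and
`ρ : G →* M₂(A)` with `tr ρ g = φ₀ (t g)` whose `A`-span is `M₂(A)`.  Then `A²` (with `G` acting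
through `ρ`) is a `G`-equivariant quotient of a `G`-stable subgroup of a finite power of `W`.

No idempotents, no matrix units: the kernel of `R₀[G] → End W_𝔪` is contained in the kernel of
`R₀[G] → M₂(A)` because the trace descends (`h48_trace_descent`).
-/

set_option autoImplicit false
set_option linter.unusedSimpArgs false
set_option linter.unusedVariables false
set_option linter.unusedSectionVars false

namespace Fermat.Agent.S32

open Matrix

section ops

variable {G : Type} [Group G] {W : Type} [AddCommGroup W] {R₀ : Type} [CommRing R₀] [Module R₀ W]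
  (r : G →* Module.End R₀ W) (a : G → ℕ) (t : G → R₀)

theorem h48_r_inv_apply (g : G) (w : W) : r g⁻¹ (r g w) = w := by
  rw [← Module.End.mul_apply, ← map_mul, inv_mul_cancel, map_one, Module.End.one_apply]

theorem h48_r_apply_inv (g : G) (w : W) : r g (r g⁻¹ w) = w := by
  rw [← Module.End.mul_apply, ← map_mul, mul_inv_cancel, map_one, Module.End.one_apply]

theorem h48_r_mul (g h : G) (w : W) : r (g * h) w = r g (r h w) := by
  rw [map_mul, Module.End.mul_apply]

variable {r a t}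

/-- `a h • h⁻¹ = t h - h` as operators. -/
theorem h48_adj (ht : ∀ (g : G) (w : W), t g • w = r g w + a g • r g⁻¹ w) (h : G) (w : W) :
    a h • r h⁻¹ w = t h • w - r h w := by
  rw [ht h w]; abel

/-- `a g` acts invertibly on `W`. -/
theorem h48_a_inv (ha1 : ∀ w : W, a 1 • w = w)
    (hamul : ∀ (g h : G) (w : W), a (g * h) • w = a g • a h • w) (g : G) (w : W) :
    a g • a g⁻¹ • w = w := by
  rw [← hamul, mul_inv_cancel, ha1]

/-- The polarised Cayley–Hamilton identity on `W`. -/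
theorem h48_pch (hamul : ∀ (g h : G) (w : W), a (g * h) • w = a g • a h • w)
    (ht : ∀ (g : G) (w : W), t g • w = r g w + a g • r g⁻¹ w) (g h : G) (w : W) :
    t (g * h) • w = r g (r h w) + r h (r g w) - t h • r g w - t g • r h w + t g • t h • w := by
  have e1 : a (g * h) • r (g * h)⁻¹ w = a g • a h • r h⁻¹ (r g⁻¹ w) := by
    rw [hamul, _root_.mul_inv_rev, h48_r_mul]
  have e2 : a h • r h⁻¹ (r g⁻¹ w) = t h • r g⁻¹ w - r h (r g⁻¹ w) := h48_adj ht h _
  have e3 : a g • r g⁻¹ w = t g • w - r g w := h48_adj ht g w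
  rw [ht (g * h) w, e1, e2, h48_r_mul, smul_sub, ← map_nsmul (r h), smul_comm (a g) (t h), e3,
    map_sub, map_smul, smul_sub, smul_comm (t h) (t g)]
  abel

end ops

section formal

variable {G : Type} [Group G] {W : Type} [AddCommGroup W] {R₀ : Type} [CommRing R₀] [Module R₀ W]
  (r : G →* Module.End R₀ W) (a : G → ℕ) (t : G → R₀)

/-- Formal sums `∑ cᵢ gᵢ` act on `W`. -/
noncomputable def h48_op : (G →₀ R₀) →ₗ[R₀] Module.End R₀ W :=
  Finsupp.linearCombination R₀ (fun g => r g)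

theorem h48_op_single (g : G) (c : R₀) : h48_op r (Finsupp.single g c) = c • r g := by
  rw [h48_op, Finsupp.linearCombination_single]

/-- The formal trace `∑ cᵢ t(gᵢ)`. -/
noncomputable def h48_T : (G →₀ R₀) →ₗ[R₀] R₀ := Finsupp.linearCombination R₀ t

omit [Group G] in
theorem h48_T_single (g : G) (c : R₀) : h48_T t (Finsupp.single g c) = c * t g := by
  rw [h48_T, Finsupp.linearCombination_single, smul_eq_mul]

/-- Right multiplication of a formal sum by a group element. -/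
noncomputable def h48_Rm (h : G) : (G →₀ R₀) →ₗ[R₀] (G →₀ R₀) :=
  Finsupp.lmapDomain R₀ R₀ (fun g => g * h)

theorem h48_Rm_single (h g : G) (c : R₀) :
    h48_Rm h (Finsupp.single g c) = Finsupp.single (g * h) c := by
  rw [h48_Rm, Finsupp.lmapDomain_apply, Finsupp.mapDomain_single]

/-- Left multiplication of a formal sum by a group element. -/
noncomputable def h48_Lm (g : G) : (G →₀ R₀) →ₗ[R₀] (G →₀ R₀) :=
  Finsupp.lmapDomain R₀ R₀ (fun h => g * h)

theorem h48_Lm_single (g h : G) (c : R₀) :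
    h48_Lm g (Finsupp.single h c) = Finsupp.single (g * h) c := by
  rw [h48_Lm, Finsupp.lmapDomain_apply, Finsupp.mapDomain_single]

theorem h48_op_Rm (h : G) (x : G →₀ R₀) (w : W) :
    h48_op r (h48_Rm h x) w = h48_op r x (r h w) := by
  induction x using Finsupp.induction_linear with
  | zero => simp
  | add x y hx hy => simp only [map_add, LinearMap.add_apply, hx, hy]
  | single g c =>
    rw [h48_Rm_single, h48_op_single, h48_op_single, LinearMap.smul_apply, LinearMap.smul_apply,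
      h48_r_mul]

theorem h48_op_Lm (g : G) (x : G →₀ R₀) (w : W) :
    h48_op r (h48_Lm g x) w = r g (h48_op r x w) := by
  induction x using Finsupp.induction_linear with
  | zero => simp
  | add x y hx hy => simp only [map_add, LinearMap.add_apply, hx, hy]
  | single h c =>
    rw [h48_Lm_single, h48_op_single, h48_op_single, LinearMap.smul_apply, LinearMap.smul_apply,
      h48_r_mul, map_smul]

variable {r a t}

/-- The "adjugate" relation: `T(x h) - x h = a(h) h⁻¹ (T(x) - x)` as operators on `W`. -/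
theorem h48_star (hamul : ∀ (g h : G) (w : W), a (g * h) • w = a g • a h • w)
    (ht : ∀ (g : G) (w : W), t g • w = r g w + a g • r g⁻¹ w) (x : G →₀ R₀) (h : G) (w : W) :
    h48_T t (h48_Rm h x) • w - h48_op r x (r h w) =
      a h • r h⁻¹ (h48_T t x • w - h48_op r x w) := by
  induction x using Finsupp.induction_linear with
  | zero => simp
  | add x y hx hy =>
    have e : (h48_T t x + h48_T t y) • w - (h48_op r x w + h48_op r y w) =
        (h48_T t x • w - h48_op r x w) + (h48_T t y • w - h48_op r y w) := by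
      rw [add_smul]; abel
    simp only [map_add, LinearMap.add_apply]
    rw [e, map_add, smul_add, ← hx, ← hy, add_smul]
    abel
  | single g c =>
    rw [h48_Rm_single, h48_T_single, h48_T_single, h48_op_single, LinearMap.smul_apply,
      LinearMap.smul_apply, h48_adj ht h, mul_smul, h48_pch hamul ht g h w, map_sub, map_smul,
      map_smul, mul_smul]
    module

end formal

section matrices

variable {A : Type} [CommRing A]

/-- The form `Q(X, Y) = 2 tr(XY) - tr X tr Y` on `M₂(A)`. -/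
def h48_Q (X Y : Matrix (Fin 2) (Fin 2) A) : A := 2 * (X * Y).trace - X.trace * Y.trace

/-- The four-linear expression `Q(X,Y) Q(X',Y') - Q(X,X') Q(Y,Y')`. -/
def h48_F (X Y X' Y' : Matrix (Fin 2) (Fin 2) A) : A :=
  h48_Q X Y * h48_Q X' Y' - h48_Q X X' * h48_Q Y Y'

theorem h48_F_add1 (X X₂ Y X' Y' : Matrix (Fin 2) (Fin 2) A) :
    h48_F (X + X₂) Y X' Y' = h48_F X Y X' Y' + h48_F X₂ Y X' Y' := by
  simp only [h48_F, h48_Q, Matrix.add_mul, Matrix.mul_add, Matrix.trace_add]; ring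

theorem h48_F_add2 (X Y Y₂ X' Y' : Matrix (Fin 2) (Fin 2) A) :
    h48_F X (Y + Y₂) X' Y' = h48_F X Y X' Y' + h48_F X Y₂ X' Y' := by
  simp only [h48_F, h48_Q, Matrix.add_mul, Matrix.mul_add, Matrix.trace_add]; ring

theorem h48_F_add3 (X Y X' X₂ Y' : Matrix (Fin 2) (Fin 2) A) :
    h48_F X Y (X' + X₂) Y' = h48_F X Y X' Y' + h48_F X Y X₂ Y' := by
  simp only [h48_F, h48_Q, Matrix.add_mul, Matrix.mul_add, Matrix.trace_add]; ring

theorem h48_F_add4 (X Y X' Y' Y₂ : Matrix (Fin 2) (Fin 2) A) :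
    h48_F X Y X' (Y' + Y₂) = h48_F X Y X' Y' + h48_F X Y X' Y₂ := by
  simp only [h48_F, h48_Q, Matrix.add_mul, Matrix.mul_add, Matrix.trace_add]; ring

theorem h48_F_smul1 (c : A) (X Y X' Y' : Matrix (Fin 2) (Fin 2) A) :
    h48_F (c • X) Y X' Y' = c * h48_F X Y X' Y' := by
  simp only [h48_F, h48_Q, Matrix.smul_mul, Matrix.mul_smul, Matrix.trace_smul, smul_eq_mul]; ring

theorem h48_F_smul2 (c : A) (X Y X' Y' : Matrix (Fin 2) (Fin 2) A) :
    h48_F X (c • Y) X' Y' = c * h48_F X Y X' Y' := by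
  simp only [h48_F, h48_Q, Matrix.smul_mul, Matrix.mul_smul, Matrix.trace_smul, smul_eq_mul]; ring

theorem h48_F_smul3 (c : A) (X Y X' Y' : Matrix (Fin 2) (Fin 2) A) :
    h48_F X Y (c • X') Y' = c * h48_F X Y X' Y' := by
  simp only [h48_F, h48_Q, Matrix.smul_mul, Matrix.mul_smul, Matrix.trace_smul, smul_eq_mul]; ring

theorem h48_F_smul4 (c : A) (X Y X' Y' : Matrix (Fin 2) (Fin 2) A) :
    h48_F X Y X' (c • Y') = c * h48_F X Y X' Y' := by
  simp only [h48_F, h48_Q, Matrix.smul_mul, Matrix.mul_smul, Matrix.trace_smul, smul_eq_mul]; ring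

theorem h48_F_zero1 (Y X' Y' : Matrix (Fin 2) (Fin 2) A) : h48_F 0 Y X' Y' = 0 := by
  simp [h48_F, h48_Q]

theorem h48_F_zero2 (X X' Y' : Matrix (Fin 2) (Fin 2) A) : h48_F X 0 X' Y' = 0 := by
  simp [h48_F, h48_Q]

theorem h48_F_zero3 (X Y Y' : Matrix (Fin 2) (Fin 2) A) : h48_F X Y 0 Y' = 0 := by
  simp [h48_F, h48_Q]

theorem h48_F_zero4 (X Y X' : Matrix (Fin 2) (Fin 2) A) : h48_F X Y X' 0 = 0 := by
  simp [h48_F, h48_Q]

theorem h48_F_units :
    h48_F (!![0, 1; 0, 0] : Matrix (Fin 2) (Fin 2) A) !![0, 0; 1, 0] !![0, 1; 0, 0]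
      !![0, 0; 1, 0] = 4 := by
  simp [h48_F, h48_Q, Matrix.trace_fin_two]
  norm_num

/-- Induction along a spanning family of matrices. -/
theorem h48_span_ind {G : Type} {ρ : G → Matrix (Fin 2) (Fin 2) A}
    (hspan : Submodule.span A (Set.range ρ) = ⊤) (P : Matrix (Fin 2) (Fin 2) A → Prop)
    (h0 : P 0) (hadd : ∀ X Y, P X → P Y → P (X + Y)) (hsmul : ∀ (c : A) X, P X → P (c • X))
    (hgen : ∀ g, P (ρ g)) (X : Matrix (Fin 2) (Fin 2) A) : P X := by
  have hX : X ∈ Submodule.span A (Set.range ρ) := by rw [hspan]; exact Submodule.mem_top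
  induction hX using Submodule.span_induction with
  | mem x hx => obtain ⟨g, rfl⟩ := hx; exact hgen g
  | zero => exact h0
  | add x y _ _ hx hy => exact hadd x y hx hy
  | smul c x _ hx => exact hsmul c x hx

/-- If `F` takes values in an ideal on a spanning family, it does so everywhere. -/
theorem h48_F_mem {G : Type} {ρ : G → Matrix (Fin 2) (Fin 2) A}
    (hspan : Submodule.span A (Set.range ρ) = ⊤) (I : Ideal A)
    (hF : ∀ g h g' h', h48_F (ρ g) (ρ h) (ρ g') (ρ h') ∈ I) (X Y X' Y' : Matrix (Fin 2) (Fin 2) A) :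
    h48_F X Y X' Y' ∈ I := by
  have s1 : ∀ X, ∀ h g' h', h48_F X (ρ h) (ρ g') (ρ h') ∈ I := by
    intro X
    refine h48_span_ind hspan (fun X => ∀ h g' h', h48_F X (ρ h) (ρ g') (ρ h') ∈ I) ?_ ?_ ?_ ?_ X
    · intro h g' h'; rw [h48_F_zero1]; exact I.zero_mem
    · intro X Y hX hY h g' h'; rw [h48_F_add1]; exact I.add_mem (hX _ _ _) (hY _ _ _)
    · intro c X hX h g' h'; rw [h48_F_smul1]; exact I.mul_mem_left _ (hX _ _ _)
    · intro g h g' h'; exact hF g h g' h'
  have s2 : ∀ Y, ∀ X g' h', h48_F X Y (ρ g') (ρ h') ∈ I := by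
    intro Y
    refine h48_span_ind hspan (fun Y => ∀ X g' h', h48_F X Y (ρ g') (ρ h') ∈ I) ?_ ?_ ?_ ?_ Y
    · intro X g' h'; rw [h48_F_zero2]; exact I.zero_mem
    · intro Y Y₂ hY hY₂ X g' h'; rw [h48_F_add2]; exact I.add_mem (hY _ _ _) (hY₂ _ _ _)
    · intro c Y hY X g' h'; rw [h48_F_smul2]; exact I.mul_mem_left _ (hY _ _ _)
    · intro h X g' h'; exact s1 X h g' h'
  have s3 : ∀ X', ∀ X Y h', h48_F X Y X' (ρ h') ∈ I := by
    intro X'
    refine h48_span_ind hspan (fun X' => ∀ X Y h', h48_F X Y X' (ρ h') ∈ I) ?_ ?_ ?_ ?_ X'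
    · intro X Y h'; rw [h48_F_zero3]; exact I.zero_mem
    · intro X' X₂ hX' hX₂ X Y h'; rw [h48_F_add3]; exact I.add_mem (hX' _ _ _) (hX₂ _ _ _)
    · intro c X' hX' X Y h'; rw [h48_F_smul3]; exact I.mul_mem_left _ (hX' _ _ _)
    · intro g' X Y h'; exact s2 Y X g' h'
  refine h48_span_ind hspan (fun Y' => ∀ X Y X', h48_F X Y X' Y' ∈ I) ?_ ?_ ?_ ?_ Y' X Y X'
  · intro X Y X'; rw [h48_F_zero4]; exact I.zero_mem
  · intro Y' Y₂ hY' hY₂ X Y X'; rw [h48_F_add4]; exact I.add_mem (hY' _ _ _) (hY₂ _ _ _)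
  · intro c Y' hY' X Y X'; rw [h48_F_smul4]; exact I.mul_mem_left _ (hY' _ _ _)
  · intro h' X Y X'; exact s3 X' X Y h'

end matrices

section localise

variable {W : Type} [AddCommGroup W] {R₀ : Type} [CommRing R₀] [Module R₀ W]

/-- Localisation at an ideal on a finite module: some `1 - e` with `e ∈ 𝔪` maps `W` into the
`𝔪^j`-torsion. -/
theorem h48_localise [Finite W] (𝔪 : Ideal R₀) :
    ∃ (j : ℕ) (e : R₀), e ∈ 𝔪 ∧ ∀ (w : W), ∀ c ∈ 𝔪 ^ j, c • ((1 - e) • w) = 0 := by
  have : IsArtinian R₀ W := isArtinian_of_finite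
  let f : ℕ →o (Submodule R₀ W)ᵒᵈ :=
    ⟨fun k => OrderDual.toDual (𝔪 ^ k • (⊤ : Submodule R₀ W)), fun k l hkl => by
      show 𝔪 ^ l • (⊤ : Submodule R₀ W) ≤ 𝔪 ^ k • ⊤
      exact Submodule.smul_mono_left (Ideal.pow_le_pow_right hkl)⟩
  obtain ⟨j, hj⟩ := IsArtinian.monotone_stabilizes f
  have hj1 : 𝔪 ^ j • (⊤ : Submodule R₀ W) = 𝔪 ^ (j + 1) • ⊤ :=
    congrArg OrderDual.ofDual (hj (j + 1) (Nat.le_succ j))
  have hZ : 𝔪 ^ j • (⊤ : Submodule R₀ W) ≤ 𝔪 • (𝔪 ^ j • (⊤ : Submodule R₀ W)) := by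
    rw [← Submodule.mul_smul, ← pow_succ', ← hj1]
  obtain ⟨e, he, hez⟩ := Submodule.exists_mem_and_smul_eq_self_of_fg_of_le_smul 𝔪 _
    (IsNoetherian.noetherian _) hZ
  refine ⟨j, e, he, fun w c hc => ?_⟩
  have hz : c • w ∈ 𝔪 ^ j • (⊤ : Submodule R₀ W) := Submodule.smul_mem_smul hc Submodule.mem_top
  rw [smul_comm, sub_smul, one_smul, hez _ hz, sub_self]

/-- A nonzero element killed by a power of `𝔪` has a nonzero multiple killed by `𝔪`. -/
theorem h48_socle (𝔪 : Ideal R₀) (j : ℕ) : ∀ n : W, (∀ c ∈ 𝔪 ^ j, c • n = 0) → n ≠ 0 →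
    ∃ b : R₀, b • n ≠ 0 ∧ ∀ c ∈ 𝔪, c • b • n = 0 := by
  induction j with
  | zero =>
    intro n hn hn0
    exact absurd (by simpa using hn 1 (by simp)) hn0
  | succ j ih =>
    intro n hn hn0
    by_cases h : ∀ c ∈ 𝔪, c • n = 0
    · exact ⟨1, by simpa using hn0, fun c hc => by simpa using h c hc⟩
    · push Not at h
      obtain ⟨c', hc', hc'n⟩ := h
      obtain ⟨b, hb, hb2⟩ := ih (c' • n) (fun c hc => by
        rw [← mul_smul]; exact hn _ (by rw [pow_succ]; exact Ideal.mul_mem_mul hc hc')) hc'n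
      exact ⟨b * c', by rwa [mul_smul], fun c hc => by rw [mul_smul]; exact hb2 c hc⟩

end localise

section commutative

variable {G : Type} [Group G] {W : Type} [AddCommGroup W] {R₀ : Type} [CommRing R₀] [Module R₀ W]
  (r : G →* Module.End R₀ W) (a : G → ℕ) (t : G → R₀)

/-- The part of the `𝔪`-socle on which `G` acts commutatively. -/
def h48_N (𝔪 : Ideal R₀) : Submodule R₀ W where
  carrier := {n | (∀ c ∈ 𝔪, c • n = 0) ∧
    ∀ g h g' : G, r g (r h (r g' n)) = r h (r g (r g' n))}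
  add_mem' := by
    rintro x y ⟨hx1, hx2⟩ ⟨hy1, hy2⟩
    exact ⟨fun c hc => by rw [smul_add, hx1 c hc, hy1 c hc, add_zero], fun g h g' => by
      simp only [map_add, hx2, hy2]⟩
  zero_mem' := ⟨fun c _ => smul_zero c, fun g h g' => by simp only [map_zero]⟩
  smul_mem' := by
    rintro b x ⟨hx1, hx2⟩
    exact ⟨fun c hc => by rw [smul_comm, hx1 c hc, smul_zero], fun g h g' => by
      simp only [map_smul, hx2]⟩

variable {r}

theorem h48_N_stable {𝔪 : Ideal R₀} (g : G) {n : W} (hn : n ∈ h48_N r 𝔪) :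
    r g n ∈ h48_N r 𝔪 :=
  ⟨fun c hc => by rw [← map_smul, hn.1 c hc, map_zero], fun k h g' => by
    rw [← h48_r_mul r g' g]; exact hn.2 k h (g' * g)⟩

theorem h48_N_comm {𝔪 : Ideal R₀} (g h : G) {n : W} (hn : n ∈ h48_N r 𝔪) :
    r g (r h n) = r h (r g n) := by
  have := hn.2 g h 1
  rwa [map_one, Module.End.one_apply] at this

variable (r)

/-- `u_g = 2 g - t(g)`. -/
noncomputable def h48_u (g : G) : Module.End R₀ W := (2 : R₀) • r g - t g • LinearMap.id

theorem h48_u_apply (g : G) (v : W) : h48_u r t g v = (2 : R₀) • r g v - t g • v := rfl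

/-- `β(g, h) = 2 t(gh) - t(g) t(h)`. -/
def h48_beta (g h : G) : R₀ := 2 * t (g * h) - t g * t h

variable {r a t}

theorem h48_u_mem {𝔪 : Ideal R₀} (g : G) {n : W} (hn : n ∈ h48_N r 𝔪) :
    h48_u r t g n ∈ h48_N r 𝔪 :=
  Submodule.sub_mem _ (Submodule.smul_mem _ _ (h48_N_stable g hn)) (Submodule.smul_mem _ _ hn)

theorem h48_u_u (hamul : ∀ (g h : G) (w : W), a (g * h) • w = a g • a h • w)
    (ht : ∀ (g : G) (w : W), t g • w = r g w + a g • r g⁻¹ w) {𝔪 : Ideal R₀} {n : W}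
    (hn : n ∈ h48_N r 𝔪) (g h : G) : h48_u r t g (h48_u r t h n) = h48_beta t g h • n := by
  have hc := h48_N_comm g h hn
  have hp := h48_pch hamul ht g h n
  simp only [h48_u_apply, map_sub, map_smul, h48_beta, sub_smul, mul_smul, hp, ← hc]
  module

theorem h48_u_comm {𝔪 : Ideal R₀} {n : W} (hn : n ∈ h48_N r 𝔪) (g h : G) :
    h48_u r t g (h48_u r t h n) = h48_u r t h (h48_u r t g n) := by
  have hc := h48_N_comm g h hn
  simp only [h48_u_apply, map_sub, map_smul, hc]
  module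

theorem h48_N_identity (hamul : ∀ (g h : G) (w : W), a (g * h) • w = a g • a h • w)
    (ht : ∀ (g : G) (w : W), t g • w = r g w + a g • r g⁻¹ w) {𝔪 : Ideal R₀} {n : W}
    (hn : n ∈ h48_N r 𝔪) (g h g' h' : G) :
    (h48_beta t g h * h48_beta t g' h' - h48_beta t g g' * h48_beta t h h') • n = 0 := by
  have e1 : (h48_beta t g h * h48_beta t g' h') • n =
      h48_u r t g (h48_u r t h (h48_u r t g' (h48_u r t h' n))) := by
    rw [mul_smul, ← h48_u_u hamul ht hn g' h',
      ← h48_u_u hamul ht (h48_u_mem g' (h48_u_mem h' hn)) g h]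
  have e2 : (h48_beta t g g' * h48_beta t h h') • n =
      h48_u r t g (h48_u r t g' (h48_u r t h (h48_u r t h' n))) := by
    rw [mul_smul, ← h48_u_u hamul ht hn h h',
      ← h48_u_u hamul ht (h48_u_mem h (h48_u_mem h' hn)) g g']
  rw [sub_smul, e1, e2, h48_u_comm (h48_u_mem h' hn) h g', sub_self]

end commutative

section descent

variable {G : Type} [Group G] {W : Type} [AddCommGroup W] {R₀ : Type} [CommRing R₀] [Module R₀ W]
  {r : G →* Module.End R₀ W} {a : G → ℕ} {t : G → R₀}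
  {A : Type} [CommRing A] [IsLocalRing A] [Finite A]

/-- A nonzero element of `N` forces the four-linear form to take values in the maximal ideal. -/
theorem h48_F_mem_max (hamul : ∀ (g h : G) (w : W), a (g * h) • w = a g • a h • w)
    (ht : ∀ (g : G) (w : W), t g • w = r g w + a g • r g⁻¹ w)
    (φ₀ : R₀ →+* A) (ρ : G →* Matrix (Fin 2) (Fin 2) A) (htr : ∀ g, (ρ g).trace = φ₀ (t g))
    {n : W} (hn : n ∈ h48_N r (Ideal.comap φ₀ (IsLocalRing.maximalIdeal A))) (hn0 : n ≠ 0)
    (g h g' h' : G) : h48_F (ρ g) (ρ h) (ρ g') (ρ h') ∈ IsLocalRing.maximalIdeal A := by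
  have hQ : ∀ g h, φ₀ (h48_beta t g h) = h48_Q (ρ g) (ρ h) := by
    intro g h
    rw [h48_beta, h48_Q, ← ρ.map_mul, htr, htr, htr, map_sub, map_mul, map_mul, map_ofNat]
  have hDn := h48_N_identity hamul ht hn g h g' h'
  have hφD : φ₀ (h48_beta t g h * h48_beta t g' h' - h48_beta t g g' * h48_beta t h h') =
      h48_F (ρ g) (ρ h) (ρ g') (ρ h') := by
    rw [h48_F, map_sub, map_mul, map_mul, hQ, hQ, hQ, hQ]
  rw [← hφD]
  generalize h48_beta t g h * h48_beta t g' h' - h48_beta t g g' * h48_beta t h h' = D at hDn ⊢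
  by_contra hnot
  have hu : IsUnit (φ₀ D) := by
    by_contra h1
    exact hnot ((IsLocalRing.mem_maximalIdeal _).mpr h1)
  obtain ⟨u, hu⟩ := hu
  obtain ⟨k, hk, huk⟩ := (isOfFinOrder_of_finite u).exists_pow_eq_one
  have h1 : φ₀ (D ^ k - 1) = 0 := by
    rw [map_sub, map_pow, map_one, ← hu, ← Units.val_pow_eq_pow_val, huk, Units.val_one, sub_self]
  have h2 : (D ^ k - 1) • n = 0 :=
    hn.1 _ (by rw [Ideal.mem_comap, h1]; exact Ideal.zero_mem _)
  have h3 : D ^ k • n = 0 := by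
    obtain ⟨k', rfl⟩ := Nat.exists_eq_succ_of_ne_zero hk.ne'
    rw [pow_succ, mul_smul, hDn, smul_zero]
  apply hn0
  rw [sub_smul, h3, one_smul, zero_sub, neg_eq_zero] at h2
  exact h2

/-- **Trace descent.** If a formal sum acts by zero on the `𝔪`-primary part, so does its formal
trace. -/
theorem h48_trace_descent (ha1 : ∀ w : W, a 1 • w = w)
    (hamul : ∀ (g h : G) (w : W), a (g * h) • w = a g • a h • w)
    (ht : ∀ (g : G) (w : W), t g • w = r g w + a g • r g⁻¹ w)
    (h2 : IsUnit (2 : A)) (φ₀ : R₀ →+* A) (ρ : G →* Matrix (Fin 2) (Fin 2) A)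
    (htr : ∀ g, (ρ g).trace = φ₀ (t g)) (hspan : Submodule.span A (Set.range ρ) = ⊤)
    (j : ℕ) (x : G →₀ R₀)
    (hx : ∀ w : W, (∀ c ∈ (Ideal.comap φ₀ (IsLocalRing.maximalIdeal A)) ^ j, c • w = 0) →
      h48_op r x w = 0)
    (w : W) (hw : ∀ c ∈ (Ideal.comap φ₀ (IsLocalRing.maximalIdeal A)) ^ j, c • w = 0) :
    h48_T t x • w = 0 := by
  generalize h𝔪 : Ideal.comap φ₀ (IsLocalRing.maximalIdeal A) = 𝔪 at hx hw
  have W1 : ∀ (g : G) (w : W), (∀ c ∈ 𝔪 ^ j, c • w = 0) → ∀ c ∈ 𝔪 ^ j, c • r g w = 0 :=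
    fun g w hw c hc => by rw [← map_smul, hw c hc, map_zero]
  have W2 : ∀ (b : R₀) (w : W), (∀ c ∈ 𝔪 ^ j, c • w = 0) → ∀ c ∈ 𝔪 ^ j, c • b • w = 0 :=
    fun b w hw c hc => by rw [smul_comm, hw c hc, smul_zero]
  have star : ∀ (h : G) (w : W), (∀ c ∈ 𝔪 ^ j, c • w = 0) →
      h48_T t (h48_Rm h x) • w = a h • r h⁻¹ (h48_T t x • w) := by
    intro h w hw
    have := h48_star hamul ht x h w
    rwa [hx _ (W1 h w hw), hx w hw, sub_zero, sub_zero] at this
  have comm1 : ∀ (g h : G) (w : W), (∀ c ∈ 𝔪 ^ j, c • w = 0) →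
      r g (r h⁻¹ (h48_T t x • w)) = r h⁻¹ (r g (h48_T t x • w)) := by
    intro g h w hw
    have e : a h • r g (r h⁻¹ (h48_T t x • w)) = a h • r h⁻¹ (r g (h48_T t x • w)) := by
      rw [← map_nsmul (r g), ← star h w hw, map_smul, star h _ (W1 g w hw), map_smul (r g)]
    have hinv : ∀ v : W, a h⁻¹ • a h • v = v := fun v => by
      have := h48_a_inv ha1 hamul h⁻¹ v
      rwa [inv_inv] at this
    have e' := congrArg (fun v => a h⁻¹ • v) e
    simpa only [hinv] using e'
  have comm : ∀ (g h : G) (w : W), (∀ c ∈ 𝔪 ^ j, c • w = 0) →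
      r g (r h (h48_T t x • w)) = r h (r g (h48_T t x • w)) := by
    intro g h w hw
    have := comm1 g h⁻¹ w hw
    rwa [inv_inv] at this
  by_contra hne
  obtain ⟨b, hb, hb2⟩ := h48_socle 𝔪 j (h48_T t x • w) (W2 _ w hw) hne
  have hnN : b • h48_T t x • w ∈ h48_N r 𝔪 := by
    refine ⟨hb2, fun g h g' => ?_⟩
    have e : r g' (b • h48_T t x • w) = h48_T t x • (b • r g' w) := by
      rw [map_smul, map_smul, smul_comm]
    rw [e]
    exact comm g h _ (W2 b _ (W1 g' w hw))
  subst h𝔪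
  have hF := h48_F_mem hspan (IsLocalRing.maximalIdeal A)
    (fun g h g' h' => h48_F_mem_max hamul ht φ₀ ρ htr hnN hb g h g' h')
    !![0, 1; 0, 0] !![0, 0; 1, 0] !![0, 1; 0, 0] !![0, 0; 1, 0]
  rw [h48_F_units] at hF
  have h4 : IsUnit (4 : A) := by
    have : (4 : A) = 2 * 2 := by norm_num
    rw [this]; exact h2.mul h2
  exact (IsLocalRing.mem_maximalIdeal _).mp hF h4

end descent

section psi

variable {G : Type} [Group G] {R₀ : Type} [CommRing R₀] {A : Type} [CommRing A]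
  (φ₀ : R₀ →+* A) (ρ : G →* Matrix (Fin 2) (Fin 2) A)

/-- The map `R₀[G] → M₂(A)`, `c g ↦ φ₀ c • ρ g`. -/
noncomputable def h48_Psi : (G →₀ R₀) →+ Matrix (Fin 2) (Fin 2) A :=
  Finsupp.liftAddHom (fun g =>
    ((smulAddHom A (Matrix (Fin 2) (Fin 2) A)).flip (ρ g)).comp φ₀.toAddMonoidHom)

theorem h48_Psi_single (g : G) (c : R₀) : h48_Psi φ₀ ρ (Finsupp.single g c) = φ₀ c • ρ g := by
  rw [h48_Psi, Finsupp.liftAddHom_apply_single]; rfl

theorem h48_Psi_Lm (g : G) (x : G →₀ R₀) :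
    h48_Psi φ₀ ρ (h48_Lm g x) = ρ g * h48_Psi φ₀ ρ x := by
  induction x using Finsupp.induction_linear with
  | zero => simp
  | add x y hx hy => rw [map_add, map_add, map_add, hx, hy, mul_add]
  | single h c => rw [h48_Lm_single, h48_Psi_single, h48_Psi_single, map_mul, Matrix.mul_smul]

theorem h48_Psi_Rm (h : G) (x : G →₀ R₀) :
    h48_Psi φ₀ ρ (h48_Rm h x) = h48_Psi φ₀ ρ x * ρ h := by
  induction x using Finsupp.induction_linear with
  | zero => simp
  | add x y hx hy => rw [map_add, map_add, map_add, hx, hy, add_mul]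
  | single g c => rw [h48_Rm_single, h48_Psi_single, h48_Psi_single, map_mul, Matrix.smul_mul]

theorem h48_Psi_trace (t : G → R₀) (htr : ∀ g, (ρ g).trace = φ₀ (t g)) (x : G →₀ R₀) :
    (h48_Psi φ₀ ρ x).trace = φ₀ (h48_T t x) := by
  induction x using Finsupp.induction_linear with
  | zero => simp
  | add x y hx hy => rw [map_add, map_add, Matrix.trace_add, hx, hy, map_add]
  | single g c => rw [h48_Psi_single, h48_T_single, Matrix.trace_smul, htr, smul_eq_mul, map_mul]

/-- Nondegeneracy of the trace pairing against a spanning family. -/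
theorem h48_eq_zero_of_trace {ρ : G → Matrix (Fin 2) (Fin 2) A}
    (hspan : Submodule.span A (Set.range ρ) = ⊤) (M : Matrix (Fin 2) (Fin 2) A)
    (h : ∀ g, (M * ρ g).trace = 0) : M = 0 := by
  have hall : ∀ Y : Matrix (Fin 2) (Fin 2) A, (M * Y).trace = 0 := by
    intro Y
    refine h48_span_ind hspan (fun Y => (M * Y).trace = 0) ?_ ?_ ?_ h Y
    · simp
    · intro X Y hX hY; rw [Matrix.mul_add, Matrix.trace_add, hX, hY, add_zero]
    · intro c X hX; rw [Matrix.mul_smul, Matrix.trace_smul, hX, smul_zero]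
  ext i j
  have h1 := hall (Matrix.single j i 1)
  rw [Matrix.trace_mul_single] at h1
  simpa using h1

end psi

section kernel

variable {G : Type} [Group G] {W : Type} [AddCommGroup W] {R₀ : Type} [CommRing R₀] [Module R₀ W]
  {r : G →* Module.End R₀ W} {a : G → ℕ} {t : G → R₀}
  {A : Type} [CommRing A] [IsLocalRing A] [Finite A]

/-- The kernel of `R₀[G] → End(W_𝔪)` is contained in the kernel of `R₀[G] → M₂(A)`. -/
theorem h48_kernel (ha1 : ∀ w : W, a 1 • w = w)
    (hamul : ∀ (g h : G) (w : W), a (g * h) • w = a g • a h • w)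
    (ht : ∀ (g : G) (w : W), t g • w = r g w + a g • r g⁻¹ w)
    (h2 : IsUnit (2 : A)) (φ₀ : R₀ →+* A) (hφ : ∀ c : R₀, (∀ w : W, c • w = 0) → φ₀ c = 0)
    (ρ : G →* Matrix (Fin 2) (Fin 2) A)
    (htr : ∀ g, (ρ g).trace = φ₀ (t g)) (hspan : Submodule.span A (Set.range ρ) = ⊤)
    (j : ℕ) (e : R₀) (he : e ∈ Ideal.comap φ₀ (IsLocalRing.maximalIdeal A))
    (hje : ∀ (w : W), ∀ c ∈ (Ideal.comap φ₀ (IsLocalRing.maximalIdeal A)) ^ j,
      c • ((1 - e) • w) = 0)
    (x : G →₀ R₀)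
    (hx : ∀ w : W, (∀ c ∈ (Ideal.comap φ₀ (IsLocalRing.maximalIdeal A)) ^ j, c • w = 0) →
      h48_op r x w = 0) : h48_Psi φ₀ ρ x = 0 := by
  refine h48_eq_zero_of_trace hspan _ (fun h => ?_)
  rw [← h48_Psi_Rm, h48_Psi_trace φ₀ ρ t htr]
  have hxh : ∀ w : W, (∀ c ∈ (Ideal.comap φ₀ (IsLocalRing.maximalIdeal A)) ^ j, c • w = 0) →
      h48_op r (h48_Rm h x) w = 0 := by
    intro w hw
    rw [h48_op_Rm]
    exact hx _ (fun c hc => by rw [← map_smul, hw c hc, map_zero])
  have hT := h48_trace_descent ha1 hamul ht h2 φ₀ ρ htr hspan j (h48_Rm h x) hxh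
  have h0 : φ₀ (h48_T t (h48_Rm h x) * (1 - e)) = 0 :=
    hφ _ (fun w => by rw [mul_smul]; exact hT _ (hje w))
  rw [map_mul] at h0
  have hunit : IsUnit (φ₀ (1 - e)) := by
    rw [map_sub, map_one]
    exact IsLocalRing.isUnit_one_sub_self_of_mem_nonunits _ he
  exact (hunit.mul_left_eq_zero).mp h0

end kernel

section extend

variable {G : Type} [Group G] {W : Type} [AddCommGroup W] {R₀ : Type} [CommRing R₀] [Module R₀ W]
  (r : G →* Module.End R₀ W) {A : Type} [CommRing A]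

/-- The first column of a `2 × 2` matrix. -/
def h48_col : Matrix (Fin 2) (Fin 2) A →+ (Fin 2 → A) where
  toFun M i := M i 0
  map_zero' := rfl
  map_add' _ _ := rfl

theorem h48_col_mul (X M : Matrix (Fin 2) (Fin 2) A) :
    h48_col (X * M) = X.mulVec (h48_col M) := by
  funext i
  rfl

theorem h48_col_smul (c : A) (M : Matrix (Fin 2) (Fin 2) A) :
    h48_col (c • M) = c • h48_col M := rfl

theorem h48_col_of (v : Fin 2 → A) : h48_col (Matrix.of fun i _ => v i) = v := rfl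

/-- `A`-linear extension of an additive map, on finitely supported functions. -/
noncomputable def h48_piA {B₀ : Type} [AddCommGroup B₀] (π₀ : B₀ →+ (Fin 2 → A)) :
    (A →₀ B₀) →+ (Fin 2 → A) :=
  Finsupp.liftAddHom (fun o => (smulAddHom A (Fin 2 → A) o).comp π₀)

theorem h48_piA_single {B₀ : Type} [AddCommGroup B₀] (π₀ : B₀ →+ (Fin 2 → A)) (o : A) (b : B₀) :
    h48_piA π₀ (Finsupp.single o b) = o • π₀ b := by
  rw [h48_piA, Finsupp.liftAddHom_apply_single]; rfl

theorem h48_piA_mapDomain {B₀ : Type} [AddCommGroup B₀] (π₀ : B₀ →+ (Fin 2 → A)) (c : A)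
    (f : A →₀ B₀) : h48_piA π₀ (Finsupp.mapDomain (fun o => c * o) f) = c • h48_piA π₀ f := by
  induction f using Finsupp.induction_linear with
  | zero => simp
  | add x y hx hy => rw [Finsupp.mapDomain_add, map_add, map_add, hx, hy, smul_add]
  | single o b => rw [Finsupp.mapDomain_single, h48_piA_single, h48_piA_single, mul_smul]

theorem h48_extend [Finite A] (ρ : G →* Matrix (Fin 2) (Fin 2) A)
    {X₀ : Type} [Finite X₀] {B₀ : Type} [AddCommGroup B₀] (rB₀ : G →* AddMonoid.End B₀)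
    (i₀ : B₀ →+ (X₀ → W)) (π₀ : B₀ →+ (Fin 2 → A))
    (hi : Function.Injective i₀) (hie : ∀ g b x, i₀ (rB₀ g b) x = r g (i₀ b x))
    (hπe : ∀ g b, π₀ (rB₀ g b) = (ρ g).mulVec (π₀ b))
    (hgen : ∀ v : Fin 2 → A, v ∈ Submodule.span A (Set.range π₀)) :
    ∃ (X : Type) (_ : Finite X) (B : Type) (_ : AddCommGroup B) (rB : G →* AddMonoid.End B)
      (i : B →+ (X → W)) (π : B →+ (Fin 2 → A)),
      Function.Injective i ∧ (∀ g b x, i (rB g b) x = r g (i b x)) ∧
      Function.Surjective π ∧ ∀ g b, π (rB g b) = (ρ g).mulVec (π b) := by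
  let rB : G →* AddMonoid.End (A →₀ B₀) :=
    { toFun := fun g => Finsupp.mapRange.addMonoidHom (rB₀ g)
      map_one' := by
        ext f o
        show rB₀ 1 (f o) = f o
        rw [map_one]; rfl
      map_mul' := fun g h => by
        ext f o
        show rB₀ (g * h) (f o) = rB₀ g (rB₀ h (f o))
        rw [map_mul]; rfl }
  have hrB : ∀ g (f : A →₀ B₀) o, rB g f o = rB₀ g (f o) := fun g f o => rfl
  have hrBs : ∀ g o (b : B₀), rB g (Finsupp.single o b) = Finsupp.single o (rB₀ g b) :=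
    fun g o b => Finsupp.mapRange_single (hf := map_zero (rB₀ g))
  let i : (A →₀ B₀) →+ (A × X₀ → W) :=
    { toFun := fun f p => i₀ (f p.1) p.2
      map_zero' := by funext p; simp
      map_add' := fun f f' => by funext p; simp }
  have hiapp : ∀ (f : A →₀ B₀) p, i f p = i₀ (f p.1) p.2 := fun f p => rfl
  refine ⟨A × X₀, inferInstance, A →₀ B₀, inferInstance, rB, i, h48_piA π₀, ?_, ?_, ?_, ?_⟩
  · intro f f' h
    ext o
    apply hi
    funext x
    exact congrFun h (o, x)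
  · intro g f p
    rw [hiapp, hiapp, hrB, hie]
  · intro v
    have hv := hgen v
    induction hv using Submodule.span_induction with
    | mem x hx =>
      obtain ⟨b, rfl⟩ := hx
      exact ⟨Finsupp.single 1 b, by rw [h48_piA_single, one_smul]⟩
    | zero => exact ⟨0, map_zero _⟩
    | add x y _ _ hx hy =>
      obtain ⟨f, rfl⟩ := hx
      obtain ⟨f', rfl⟩ := hy
      exact ⟨f + f', map_add _ _ _⟩
    | smul c x _ hx =>
      obtain ⟨f, rfl⟩ := hx
      exact ⟨_, h48_piA_mapDomain π₀ c f⟩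
  · intro g f
    induction f using Finsupp.induction_linear with
    | zero => simp
    | add x y hx hy => rw [map_add, map_add, hx, hy, map_add, Matrix.mulVec_add]
    | single o b => rw [hrBs, h48_piA_single, h48_piA_single, hπe, Matrix.mulVec_smul]

end extend

section assembly

variable {G : Type} [Group G] {W : Type} [AddCommGroup W] {R₀ : Type} [CommRing R₀] [Module R₀ W]
  (r : G →* Module.End R₀ W)

/-- The evaluation map `R₀[G] → (S → W)` on the subset of `W` cut out by a predicate. -/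
noncomputable def h48_opm (P : W → Prop) : (G →₀ R₀) →+ ({w : W // P w} → W) where
  toFun x w := h48_op r x w.1
  map_zero' := by funext w; simp
  map_add' x y := by funext w; simp

theorem h48_opm_apply (P : W → Prop) (x : G →₀ R₀) (w : {w : W // P w}) :
    h48_opm r P x w = h48_op r x w.1 := rfl

theorem h48_Lm_one (x : G →₀ R₀) : h48_Lm (1 : G) x = x := by
  induction x using Finsupp.induction_linear with
  | zero => simp
  | add x y hx hy => rw [map_add, hx, hy]
  | single h c => rw [h48_Lm_single, one_mul]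

theorem h48_Lm_mul (g h : G) (x : G →₀ R₀) : h48_Lm (g * h) x = h48_Lm g (h48_Lm h x) := by
  induction x using Finsupp.induction_linear with
  | zero => simp
  | add x y hx hy => rw [map_add, map_add, map_add, hx, hy]
  | single k c => rw [h48_Lm_single, h48_Lm_single, h48_Lm_single, mul_assoc]

theorem h48_opm_Lm (P : W → Prop) (g : G) (x : G →₀ R₀) (hx : x ∈ (h48_opm r P).ker) :
    x ∈ (h48_opm r P).ker.comap (h48_Lm g).toAddMonoidHom := by
  rw [AddSubgroup.mem_comap, AddMonoidHom.mem_ker]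
  rw [AddMonoidHom.mem_ker] at hx
  funext w
  have h0 : h48_op r x w.1 = 0 := congrFun hx w
  show h48_op r (h48_Lm g x) w.1 = 0
  rw [h48_op_Lm, h0, map_zero]

/-- The action of `G` on `R₀[G] / ker`. -/
noncomputable def h48_rB0 (P : W → Prop) :
    G →* AddMonoid.End ((G →₀ R₀) ⧸ (h48_opm r P).ker) where
  toFun g := QuotientAddGroup.map _ _ (h48_Lm g).toAddMonoidHom (h48_opm_Lm r P g)
  map_one' := by
    refine AddMonoidHom.ext fun b => ?_
    obtain ⟨x, rfl⟩ := QuotientAddGroup.mk_surjective b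
    show ((h48_Lm (1 : G) x : G →₀ R₀) : (G →₀ R₀) ⧸ (h48_opm r P).ker) = x
    rw [h48_Lm_one]
  map_mul' g h := by
    refine AddMonoidHom.ext fun b => ?_
    obtain ⟨x, rfl⟩ := QuotientAddGroup.mk_surjective b
    show ((h48_Lm (g * h) x : G →₀ R₀) : (G →₀ R₀) ⧸ (h48_opm r P).ker) =
      ((h48_Lm g (h48_Lm h x) : G →₀ R₀) : (G →₀ R₀) ⧸ (h48_opm r P).ker)
    rw [h48_Lm_mul]

theorem h48_rB0_mk (P : W → Prop) (g : G) (x : G →₀ R₀) :
    h48_rB0 r P g (QuotientAddGroup.mk x) = QuotientAddGroup.mk (h48_Lm g x) := rfl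

end assembly

/-- **The Cayley–Hamilton core.**  `A²` with `G` acting through `ρ` is an equivariant quotient of
a `G`-stable subgroup of a finite power of `W`. -/
theorem h48_ch_core {G : Type} [Group G] {W : Type} [AddCommGroup W] [Finite W]
    {R₀ : Type} [CommRing R₀] [Module R₀ W]
    (r : G →* Module.End R₀ W) (a : G → ℕ) (t : G → R₀)
    (ha1 : ∀ w : W, a 1 • w = w)
    (hamul : ∀ (g h : G) (w : W), a (g * h) • w = a g • a h • w)
    (ht : ∀ (g : G) (w : W), t g • w = r g w + a g • r g⁻¹ w)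
    {A : Type} [CommRing A] [IsLocalRing A] [Finite A] (h2 : IsUnit (2 : A))
    (φ₀ : R₀ →+* A) (hφ : ∀ c : R₀, (∀ w : W, c • w = 0) → φ₀ c = 0)
    (ρ : G →* Matrix (Fin 2) (Fin 2) A) (htr : ∀ g, (ρ g).trace = φ₀ (t g))
    (hspan : Submodule.span A (Set.range ρ) = ⊤) :
    ∃ (X : Type) (_ : Finite X) (B : Type) (_ : AddCommGroup B) (rB : G →* AddMonoid.End B)
      (i : B →+ (X → W)) (π : B →+ (Fin 2 → A)),
      Function.Injective i ∧ (∀ g b x, i (rB g b) x = r g (i b x)) ∧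
      Function.Surjective π ∧ ∀ g b, π (rB g b) = (ρ g).mulVec (π b) := by
  obtain ⟨j, e, he, hje⟩ := h48_localise (W := W) (Ideal.comap φ₀ (IsLocalRing.maximalIdeal A))
  generalize hP : (fun w : W =>
    ∀ c ∈ (Ideal.comap φ₀ (IsLocalRing.maximalIdeal A)) ^ j, c • w = 0) = P
  have hPw : ∀ w : W, P w ↔
      ∀ c ∈ (Ideal.comap φ₀ (IsLocalRing.maximalIdeal A)) ^ j, c • w = 0 := by
    intro w; rw [← hP]
  have hK : (h48_opm r P).ker ≤ (h48_col.comp (h48_Psi φ₀ ρ)).ker := by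
    intro x hx
    rw [AddMonoidHom.mem_ker] at hx
    have hx' : ∀ w : W,
        (∀ c ∈ (Ideal.comap φ₀ (IsLocalRing.maximalIdeal A)) ^ j, c • w = 0) →
        h48_op r x w = 0 := fun w hw => congrFun hx ⟨w, (hPw w).mpr hw⟩
    rw [AddMonoidHom.mem_ker, AddMonoidHom.comp_apply,
      h48_kernel ha1 hamul ht h2 φ₀ hφ ρ htr hspan j e he hje x hx', map_zero]
  have hfin : Finite {w : W // P w} := inferInstance
  have hinj : Function.Injective (QuotientAddGroup.kerLift (h48_opm r P)) :=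
    QuotientAddGroup.kerLift_injective _
  refine h48_extend r ρ (X₀ := {w : W // P w}) (B₀ := (G →₀ R₀) ⧸ (h48_opm r P).ker)
    (h48_rB0 r P) (QuotientAddGroup.kerLift (h48_opm r P))
    (QuotientAddGroup.lift _ (h48_col.comp (h48_Psi φ₀ ρ)) hK) hinj ?_ ?_ ?_
  · intro g b w
    obtain ⟨x, rfl⟩ := QuotientAddGroup.mk_surjective b
    rw [h48_rB0_mk]
    show h48_op r (h48_Lm g x) w.1 = r g (h48_op r x w.1)
    rw [h48_op_Lm]
  · intro g b
    obtain ⟨x, rfl⟩ := QuotientAddGroup.mk_surjective b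
    rw [h48_rB0_mk]
    show h48_col (h48_Psi φ₀ ρ (h48_Lm g x)) = (ρ g).mulVec (h48_col (h48_Psi φ₀ ρ x))
    rw [h48_Psi_Lm, h48_col_mul]
  · intro v
    rw [← h48_col_of v]
    refine h48_span_ind hspan (fun Y => h48_col Y ∈ Submodule.span A (Set.range
      (QuotientAddGroup.lift _ (h48_col.comp (h48_Psi φ₀ ρ)) hK))) ?_ ?_ ?_ ?_ _
    · rw [map_zero]; exact Submodule.zero_mem _
    · intro X Y hX hY; rw [map_add]; exact Submodule.add_mem _ hX hY
    · intro c X hX; rw [h48_col_smul]; exact Submodule.smul_mem _ c hX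
    · intro g
      refine Submodule.subset_span ⟨QuotientAddGroup.mk (Finsupp.single g 1), ?_⟩
      show h48_col (h48_Psi φ₀ ρ (Finsupp.single g 1)) = h48_col (ρ g)
      rw [h48_Psi_single, map_one, one_smul]

end Fermat.Agent.S32
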