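import Fermat.Agent.S32.h48_ChCore

/-!
# S32, algebra core in "kernel form" (helper48)

`h48_chcore_ker`: the statement of `h48_ch_core` for a Galois module given by
`r : G →* AddMonoid.End W` and a coefficient ring acting through a ring homomorphism
`act : R0 →+* AddMonoid.End W` (not necessarily injective).
-/

set_option autoImplicit false
set_option linter.style.haveILetI false

namespace Fermat.Agent.S32

theorem h48_chcore_ker {G : Type} [Group G] {W : Type} [AddCommGroup W] [Finite W]
    (r : G →* AddMonoid.End W) {R0 : Type} [CommRing R0] (act : R0 →+* AddMonoid.End W)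
    (hcomm : ∀ (c : R0) (g : G) (w : W), act c (r g w) = r g (act c w)) (a : G → ℕ)
    (ha1 : ∀ w : W, a 1 • w = w)
    (hamul : ∀ (g h : G) (w : W), a (g * h) • w = a g • a h • w) (t : G → R0)
    (ht : ∀ (g : G) (w : W), act (t g) w = r g w + a g • r g⁻¹ w)
    {A : Type} [CommRing A] [IsLocalRing A]
    [Finite A] (h2 : IsUnit (2 : A)) (φ0 : R0 →+* A) (hker : ∀ c, act c = 0 → φ0 c = 0)
    (ρ : G →* Matrix (Fin 2) (Fin 2) A) (htr : ∀ g, (ρ g).trace = φ0 (t g))
    (hspan : Submodule.span A (Set.range ρ) = ⊤) :
    ∃ (X : Type) (_ : Finite X) (B : Type) (_ : AddCommGroup B) (rB : G →* AddMonoid.End B)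
      (i : B →+ (X → W)) (π : B →+ (Fin 2 → A)),
      Function.Injective i ∧ (∀ g b x, i (rB g b) x = r g (i b x)) ∧
      Function.Surjective π ∧ ∀ g b, π (rB g b) = (ρ g).mulVec (π b) := by
  letI : Module R0 W := Module.compHom W act
  have hsm : ∀ (c : R0) (w : W), c • w = act c w := fun c w => rfl
  let r' : G →* Module.End R0 W :=
    { toFun := fun g =>
        { toFun := fun w => r g w
          map_add' := fun x y => map_add (r g) x y
          map_smul' := fun c w => by
            show r g (c • w) = c • r g w
            rw [hsm, hsm, hcomm] }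
      map_one' := by
        refine LinearMap.ext fun w => ?_
        show r 1 w = w
        rw [map_one]; rfl
      map_mul' := fun g h => by
        refine LinearMap.ext fun w => ?_
        show r (g * h) w = r g (r h w)
        rw [map_mul]; rfl }
  have hr' : ∀ g w, r' g w = r g w := fun g w => rfl
  obtain ⟨X, hX, B, hB, rB, i, π, h1, h3, h4, h5⟩ := h48_ch_core r' a t ha1 hamul
    (fun g w => by rw [hsm, hr', hr']; exact ht g w) h2 φ0
    (fun c hc => hker c (AddMonoidHom.ext fun w => hc w)) ρ htr hspan
  exact ⟨X, hX, B, hB, rB, i, π, h1, fun g b x => h3 g b x, h4, h5⟩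

end Fermat.Agent.S32
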