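import Mathlib
import Fermat.Prelude.Def_CuspForm_HeckeGaloisRepDatum
import Fermat.Agent.GAL.h65_S31Core2

/-!
# S32, level side (helper48): the Chebotarev / Dickson / cyclotomic / trace package

* `h48_dickson_all`: on a Galois module with Eichler–Shimura relation `σ² + ℓ = t σ` on all of
  `M`, the Dickson polynomial of `t` is `σ ^ b + ℓ ^ b σ ^ (-b)` on all of `M`.
* `h48_level_fact`: for every `g` a Hecke operator `D = D_b(T_ℓ, ℓ)` and an exponent `a = ℓ ^ b`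
  with `D = g + a g⁻¹` on a subset of `M` of finite level, `g ζ = ζ ^ a`, and
  `tr ρ(g) ≡ π(D)` modulo `𝔪 ^ n`.
* `h48_cyc_facts`: any choice of cyclotomic exponents is multiplicative on a torsion module.
-/

set_option autoImplicit false

open Polynomial

namespace Fermat.Agent.S32

open Fermat.Agent.GAL

section dickson

/-- Dickson on all of a level module. -/
theorem h48_dickson_all {M : Type*} [AddCommGroup M] {G : Type*} [Group G]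
    (r : G →* AddMonoid.End M) (tM : M →+ M) (ℓ : ℕ) (σ : G)
    (hfrob : ∀ m : M, r σ (r σ m) + ℓ • m = tM (r σ m)) (b : ℕ) (m : M) :
    (Polynomial.aeval (A := AddMonoid.End M) tM (Polynomial.dickson 1 (ℓ : ℤ) b)) m =
      r (σ ^ b) m + ℓ ^ b • r ((σ ^ b)⁻¹) m := by
  have h1 : r σ * r σ⁻¹ = 1 := by rw [← map_mul, mul_inv_cancel, map_one]
  have h2 : r σ⁻¹ * r σ = 1 := by rw [← map_mul, inv_mul_cancel, map_one]
  have e1 : ∀ m : M, r σ (r σ⁻¹ m) = m := fun m => by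
    have := congrArg (fun f : AddMonoid.End M => f m) h1
    exact this
  have htM : @Eq (AddMonoid.End M) tM (r σ + (ℓ : ℤ) • r σ⁻¹) := by
    refine AddMonoidHom.ext fun m => ?_
    have e2 := hfrob (r σ⁻¹ m)
    rw [e1] at e2
    rw [← e2]
    show r σ m + ℓ • r σ⁻¹ m = r σ m + ((ℓ : ℤ) • r σ⁻¹) m
    congr 1
    rw [natCast_zsmul]
    rfl
  rw [htM, h65_dickson_inv (r σ) (r σ⁻¹) h1 h2, ← map_pow, ← map_pow, inv_pow]
  show r (σ ^ b) m + (((ℓ : ℤ) ^ b) • r (σ ^ b)⁻¹) m = _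
  congr 1
  rw [← Nat.cast_pow, natCast_zsmul]
  rfl

end dickson

section cyc

/-- Cyclotomic exponents are multiplicative on a torsion module. -/
theorem h48_cyc_facts {ζ : AlgebraicClosure ℚ} {P : ℕ} (hP : P ≠ 0) (hζ : IsPrimitiveRoot ζ P)
    (a : (AlgebraicClosure ℚ ≃ₐ[ℚ] AlgebraicClosure ℚ) → ℕ)
    (ha : ∀ g, g ζ = ζ ^ a g) {W : Type} [AddCommGroup W] (htors : ∀ w : W, P • w = 0) :
    (∀ w : W, a 1 • w = w) ∧
      ∀ (g h : AlgebraicClosure ℚ ≃ₐ[ℚ] AlgebraicClosure ℚ) (w : W),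
        a (g * h) • w = a g • a h • w := by
  have key : ∀ x y : ℕ, ζ ^ x = ζ ^ y → ∀ w : W, x • w = y • w := by
    intro x y hxy w
    have hζ0 : ζ ≠ 0 := hζ.ne_zero hP
    have h1 : ζ ^ ((y : ℤ) - x) = 1 := by
      rw [zpow_sub₀ hζ0, zpow_natCast, zpow_natCast, hxy, div_self (pow_ne_zero _ hζ0)]
    have h2 := (hζ.zpow_eq_one_iff_dvd _).mp h1
    have hmod : x ≡ y [MOD P] := Int.natCast_modEq_iff.mp (Int.modEq_iff_dvd.mpr h2)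
    exact h65_nsmul_eq_of_modEq hmod w (htors w)
  refine ⟨fun w => ?_, fun g h w => ?_⟩
  · have h1 : ζ ^ a 1 = ζ ^ 1 := by rw [← ha 1, pow_one]; rfl
    rw [key _ _ h1 w, one_smul]
  · have h1 : ζ ^ a (g * h) = ζ ^ (a g * a h) := by
      rw [← ha (g * h), AlgEquiv.mul_apply, ha h, map_pow, ha g, ← pow_mul]
    rw [key _ _ h1 w, mul_smul]

end cyc

section main

variable {p : ℕ} {N : ℕ} [NeZero N] {S : Finset ℕ}
  {𝒪 : Type} [CommRing 𝒪] [IsDomain 𝒪] [IsDiscreteValuationRing 𝒪]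
  [IsAdicComplete (IsLocalRing.maximalIdeal 𝒪) 𝒪]
  {θ : CuspForm.heckeAlgebra N 2 (↑S : Set ℕ) →+* IsLocalRing.ResidueField 𝒪}
  {T : Type} [CommRing T] [IsLocalRing T] [IsNoetherianRing T]
  [IsAdicComplete (IsLocalRing.maximalIdeal T) T] [Algebra 𝒪 T] [IsLocalHom (algebraMap 𝒪 T)]
  [Module.Finite 𝒪 T] [Module.Free 𝒪 T]

/-- **The level fact.**  For every `g` there are a prime `ℓ ∉ S` and `b` such that
`D = D_b(T_ℓ, ℓ)` acts as `g + ℓ ^ b g⁻¹` on a subset `W'` of finite level of the level module,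
`g ζ = ζ ^ (ℓ ^ b)`, and `tr ρ(g) ≡ π(D)` modulo `𝔪 ^ n`. -/
theorem h48_level_fact (hp : p.Prime) (hpS : p ∈ S)
    (hNS : ∀ q : ℕ, q.Prime → q ∣ N → q ∈ S)
    (H : CuspForm.HeckeGaloisRepDatum N (↑S : Set ℕ) 𝒪 θ T)
    {M : Type} [AddCommGroup M]
    (r : (AlgebraicClosure ℚ ≃ₐ[ℚ] AlgebraicClosure ℚ) →* AddMonoid.End M)
    (tM : Nat.Primes → M →+ M)
    (hfrob : ∀ (ℓ : ℕ) (hℓ : ℓ.Prime), ¬ ℓ ∣ N → ℓ ∉ (↑S : Set ℕ) →
      ∀ A : ValuationSubring (AlgebraicClosure ℚ), A.LiesOverPrime ℓ →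
      ∀ σ : AlgebraicClosure ℚ ≃ₐ[ℚ] AlgebraicClosure ℚ, A.IsFrobeniusAt σ ℓ →
        ∀ m : M, r σ (r σ m) + ℓ • m = tM ⟨ℓ, hℓ⟩ (r σ m))
    (hcheb : h65_WCheb) (n : ℕ) (W' : Set M)
    (L₁ : IntermediateField ℚ (AlgebraicClosure ℚ)) (hL₁ : FiniteDimensional ℚ L₁)
    (hW : ∀ σ : AlgebraicClosure ℚ ≃ₐ[ℚ] AlgebraicClosure ℚ, (∀ y ∈ L₁, σ y = y) →
      ∀ m ∈ W', r σ m = m)
    (ζ : AlgebraicClosure ℚ) (hζ : IsPrimitiveRoot ζ (p ^ n))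
    (g : AlgebraicClosure ℚ ≃ₐ[ℚ] AlgebraicClosure ℚ) :
    ∃ (ℓ : ℕ) (hℓ : ℓ.Prime) (hℓN : ¬ ℓ ∣ N) (hℓS : ℓ ∉ (↑S : Set ℕ)) (b : ℕ),
      (∀ m ∈ W', (Polynomial.aeval (A := AddMonoid.End M) (tM ⟨ℓ, hℓ⟩)
          (Polynomial.dickson 1 (ℓ : ℤ) b)) m = r g m + ℓ ^ b • r g⁻¹ m) ∧
      g ζ = ζ ^ (ℓ ^ b) ∧
      LinearMap.trace T H.ρ.V (H.ρ.ρ g) -
          H.π (Polynomial.aeval (CuspForm.heckeAlgebra.T hℓ hℓN hℓS)
            (Polynomial.dickson 1 (ℓ : ℤ) b)) ∈ IsLocalRing.maximalIdeal T ^ n := by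
  obtain ⟨L₂, hL₂fin, hL₂⟩ := H.ρ.isAdicContinuous n
  obtain ⟨L, hLfin, hLgal, hL₁L, hL₂L, hζL⟩ :=
    h65_exists_galois_level L₁ L₂ hL₁ hL₂fin ζ
  have hLnor : Normal ℚ L := hLgal.to_normal
  have halg : Algebra.IsAlgebraic ℚ (AlgebraicClosure ℚ) := AlgebraicClosure.isAlgebraic ℚ
  have hclo : IsAlgClosure ℚ (AlgebraicClosure ℚ) := ⟨inferInstance, inferInstance⟩
  have hnorQ : Normal ℚ (AlgebraicClosure ℚ) := IsAlgClosure.normal ℚ (AlgebraicClosure ℚ)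
  obtain ⟨ℓ, A, σ, b, hℓ, hℓS, hA, hσ, hσg⟩ := hcheb L hLfin hLgal g S
  have hℓN : ¬ ℓ ∣ N := fun h => hℓS (hNS ℓ hℓ h)
  have hℓS' : ℓ ∉ (↑S : Set ℕ) := by simpa using hℓS
  have hℓp : ℓ ≠ p := fun h => hℓS (h ▸ hpS)
  refine ⟨ℓ, hℓ, hℓN, hℓS', b, ?_, ?_, ?_⟩
  · intro m hm
    rw [h48_dickson_all r (tM ⟨ℓ, hℓ⟩) ℓ σ (hfrob ℓ hℓ hℓN hℓS' A hA σ hσ) b m]
    have hfix1 : ∀ y ∈ L, (g⁻¹ * σ ^ b) y = y := by
      intro y hy
      show g⁻¹ ((σ ^ b) y) = y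
      rw [hσg y hy]
      exact g.symm_apply_apply y
    have hfix2 : ∀ y ∈ L, (g * (σ ^ b)⁻¹) y = y := by
      intro y hy
      have hz : (σ ^ b)⁻¹ y ∈ L := by
        have hmap := (IntermediateField.normal_iff_forall_map_le'.mp hLnor) (σ ^ b)⁻¹
        exact hmap ⟨y, hy, rfl⟩
      show g ((σ ^ b)⁻¹ y) = y
      rw [← hσg _ hz]
      exact (σ ^ b).apply_symm_apply y
    have hr : r (σ ^ b) m = r g m := by
      have h1 := hW _ (fun y hy => hfix1 y (hL₁L hy)) m hm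
      have h2 : r (σ ^ b) = r g * r (g⁻¹ * σ ^ b) := by
        rw [← map_mul, mul_inv_cancel_left]
      rw [h2]
      show r g (r (g⁻¹ * σ ^ b) m) = r g m
      rw [h1]
    have hr' : r ((σ ^ b)⁻¹) m = r g⁻¹ m := by
      have h1 := hW _ (fun y hy => hfix2 y (hL₁L hy)) m hm
      have h2 : r ((σ ^ b)⁻¹) = r g⁻¹ * r (g * (σ ^ b)⁻¹) := by
        rw [← map_mul, inv_mul_cancel_left]
      rw [h2]
      show r g⁻¹ (r (g * (σ ^ b)⁻¹) m) = r g⁻¹ m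
      rw [h1]
    rw [hr, hr']
  · have hℓpn : ¬ ℓ ∣ p ^ n := fun h =>
      hℓp ((Nat.prime_dvd_prime_iff_eq hℓ hp).mp (hℓ.dvd_of_dvd_pow h))
    have h1 : σ ζ = ζ ^ ℓ := h65_frob_root A hℓ hA hσ hℓpn hζ.pow_eq_one
    have h2 : ∀ j : ℕ, (σ ^ j) ζ = ζ ^ (ℓ ^ j) := by
      intro j
      induction j with
      | zero => simp
      | succ j ih =>
        rw [pow_succ', AlgEquiv.mul_apply, ih, map_pow, h1, ← pow_mul, pow_succ']
    rw [← hσg ζ hζL, h2]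
  · have e1 := h65_trace_frob_pow H.ρ σ (H.π (CuspForm.heckeAlgebra.T hℓ hℓN hℓS')) ℓ
      (H.charpoly_frob ℓ hℓ hℓN hℓS' A hA σ hσ) b
    have e2 : H.π (Polynomial.aeval (CuspForm.heckeAlgebra.T hℓ hℓN hℓS')
        (Polynomial.dickson 1 (ℓ : ℤ) b)) =
        Polynomial.aeval (H.π (CuspForm.heckeAlgebra.T hℓ hℓN hℓS'))
          (Polynomial.dickson 1 (ℓ : ℤ) b) :=
      (Polynomial.aeval_algHom_apply H.π.toIntAlgHom _ _).symm
    rw [e2, ← e1]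
    exact h65_trace_congr H.ρ n L₂ hL₂ g (σ ^ b) (fun x hx => hσg x (hL₂L hx))

end main

end Fermat.Agent.S32
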