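import Mathlib

/-!
# S32 algebra: Cayley–Hamilton modules over an Artinian local ring are subquotients of powers
of a faithful one

`h91_ch_subquot` : let `B` be a local ring with nilpotent maximal ideal, `2` a unit, `G` a group,
`d : G →* Bˣ`, `t : G → B`, and `ρbar : G →* M₂(k_B)` with trace `t mod m` whose `k_B`-span is
everything.  If `M1`, `M2` are finite `B`-modules with `B`-linear `G`-actions satisfying
`g + d(g) g⁻¹ = t(g)`, and `M1` is faithful, then `M2` is a `G`-equivariant quotient of a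
`G`-stable submodule of `M1 ^ n`.

No reducedness, no freeness of `M2`, no representation over `B` is assumed.
-/

set_option autoImplicit false

namespace Fermat.Agent.S32

open IsLocalRing

section core

variable {B : Type*} [CommRing B] {Γ : Type*} [Ring Γ] [Algebra B Γ]
variable {M : Type*} [AddCommGroup M] [Module B M]

/-- The polarised Cayley–Hamilton identity for a trace function `t` on `Γ`. -/
def h91_PCH (t : Γ →ₗ[B] B) (π : Γ →ₐ[B] Module.End B M) : Prop :=
  ∀ x z : Γ, π (x * z) + π (z * x) + (t x * t z - t (x * z)) • (1 : Module.End B M)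
    = t z • π x + t x • π z

/-- The "determinant" attached to the trace function. -/
def h91_dl (t : Γ →ₗ[B] B) (u : B) (x : Γ) : B := u * (t x * t x - t (x * x))

/-- The adjugate action. -/
def h91_adj (t : Γ →ₗ[B] B) (π : Γ →ₐ[B] Module.End B M) (x : Γ) : Module.End B M :=
  t x • (1 : Module.End B M) - π x

variable {t : Γ →ₗ[B] B} {π : Γ →ₐ[B] Module.End B M}

theorem h91_ch (h : h91_PCH t π) {u : B} (hu : 2 * u = 1) (x : Γ) :
    π x * π x + h91_dl t u x • (1 : Module.End B M) = t x • π x := by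
  have h1 := h x x
  rw [map_mul] at h1
  have h2 : (2 : B) • (π x * π x + h91_dl t u x • (1 : Module.End B M)) =
      (2 : B) • (t x • π x) := by
    unfold h91_dl
    rw [smul_add, smul_smul, ← mul_assoc, hu, one_mul, two_smul, two_smul]
    exact h1
  have h3 : (u * 2) • (π x * π x + h91_dl t u x • (1 : Module.End B M)) =
      (u * 2) • (t x • π x) := by
    rw [mul_smul, mul_smul, h2]
  rwa [mul_comm u 2, hu, one_smul, one_smul] at h3

theorem h91_adj_mul (h : h91_PCH t π) (x z : Γ) :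
    h91_adj t π (x * z) = h91_adj t π z * h91_adj t π x := by
  unfold h91_adj
  have h1 := h x z
  rw [map_mul π z x] at h1
  have h2 : (t z • (1 : Module.End B M) - π z) * (t x • (1 : Module.End B M) - π x) =
      (t x * t z) • (1 : Module.End B M) - t z • π x - t x • π z + π z * π x := by
    simp only [sub_mul, mul_sub, smul_mul_assoc, mul_smul_comm, one_mul, mul_one]
    module
  rw [h2]
  linear_combination (norm := module) -h1

theorem h91_mul_adj (h : h91_PCH t π) {u : B} (hu : 2 * u = 1) (x : Γ) :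
    π x * h91_adj t π x = h91_dl t u x • (1 : Module.End B M) := by
  unfold h91_adj
  have h1 := h91_ch h hu x
  simp only [mul_sub, mul_smul_comm, mul_one]
  linear_combination (norm := module) -h1

theorem h91_adj_mul_self (h : h91_PCH t π) {u : B} (hu : 2 * u = 1) (x : Γ) :
    h91_adj t π x * π x = h91_dl t u x • (1 : Module.End B M) := by
  unfold h91_adj
  have h1 := h91_ch h hu x
  simp only [sub_mul, smul_mul_assoc, one_mul]
  linear_combination (norm := module) -h1

end core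


section nilp

variable {B : Type*} [CommRing B]

theorem h91_nilp {A : Type*} [Ring A] [Algebra B A] (I : Ideal B) (n : ℕ) (hI : I ^ n = ⊥)
    {a b : B} (ha : a ∈ I) (hb : b ∈ I) (X : A) : (a • X + b • (1 : A)) ^ n = 0 := by
  have hc : Commute (a • X) (b • (1 : A)) :=
    ((Commute.one_right X).smul_right b).smul_left a
  rw [hc.add_pow]
  apply Finset.sum_eq_zero
  intro m hm
  have hm' : m ≤ n := Nat.lt_succ_iff.1 (Finset.mem_range.1 hm)
  have h0 : a ^ m * b ^ (n - m) = 0 := by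
    have h1 : a ^ m * b ^ (n - m) ∈ I ^ m * I ^ (n - m) :=
      Ideal.mul_mem_mul (Ideal.pow_mem_pow ha m) (Ideal.pow_mem_pow hb (n - m))
    rw [← pow_add, Nat.add_sub_cancel' hm', hI] at h1
    exact (Submodule.mem_bot B).1 h1
  rw [smul_pow, smul_pow, one_pow, smul_mul_smul_comm, mul_one, h0, zero_smul, zero_mul]

end nilp

section residual

variable {B : Type*} [CommRing B] [IsLocalRing B] {Γ : Type*} [Ring Γ] [Algebra B Γ]
variable {M : Type*} [AddCommGroup M] [Module B M]
variable {t : Γ →ₗ[B] B} {π : Γ →ₐ[B] Module.End B M}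
variable {ρ : Γ →ₐ[B] Matrix (Fin 2) (Fin 2) (ResidueField B)}

theorem h91_res_dl (htr : ∀ x, residue B (t x) = (ρ x).trace) {u : B} (hu : 2 * u = 1) (x : Γ) :
    residue B (h91_dl t u x) = (ρ x).det := by
  unfold h91_dl
  rw [map_mul, map_sub, map_mul, htr, htr, map_mul]
  have hu' : (2 : ResidueField B) * residue B u = 1 := by
    have h := congrArg (residue B) hu
    rw [map_mul, map_one, map_ofNat] at h
    exact h
  have key : ∀ A : Matrix (Fin 2) (Fin 2) (ResidueField B),
      A.trace * A.trace - (A * A).trace = 2 * A.det := by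
    intro A
    simp only [Matrix.trace_fin_two, Matrix.det_fin_two, Matrix.mul_apply, Fin.sum_univ_two]
    ring
  rw [key, ← mul_assoc, mul_comm (residue B u) 2, hu', one_mul]

theorem h91_isUnit_dl (htr : ∀ x, residue B (t x) = (ρ x).trace) {u : B} (hu : 2 * u = 1)
    {x : Γ} (hx : (ρ x).det ≠ 0) : IsUnit (h91_dl t u x) := by
  rw [← IsLocalRing.residue_ne_zero_iff_isUnit, h91_res_dl htr hu]
  exact hx

/-- If `ρ ξ` is invertible, then `π ξ` is not a zero divisor against scalars. -/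
theorem h91_smul_one_eq_zero (h : h91_PCH t π) (htr : ∀ x, residue B (t x) = (ρ x).trace)
    {u : B} (hu : 2 * u = 1) {ξ : Γ} (hξ : (ρ ξ).det ≠ 0) {b : B} (hb : b • π ξ = 0) :
    b • (1 : Module.End B M) = 0 := by
  obtain ⟨v, hv⟩ := (h91_isUnit_dl htr hu hξ).exists_right_inv
  have h1 := h91_mul_adj h hu ξ
  have h2 : b • (π ξ * h91_adj t π ξ) = 0 := by rw [← smul_mul_assoc, hb, zero_mul]
  rw [h1, smul_smul] at h2
  have h3 : (v * (b * h91_dl t u ξ)) • (1 : Module.End B M) = 0 := by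
    rw [mul_smul, h2, smul_zero]
  rwa [show v * (b * h91_dl t u ξ) = b by rw [mul_comm v, mul_assoc, hv, mul_one]] at h3

/-- The candidate idempotent. -/
def h91_eps (y : Γ) (n : ℕ) : Γ := 1 - (1 - y ^ (n + 1)) ^ (n + 1)

theorem h91_eps_res {y : Γ} (hy : IsIdempotentElem (ρ y)) (n : ℕ) : ρ (h91_eps y n) = ρ y := by
  unfold h91_eps
  rw [map_sub, map_one, map_pow, map_sub, map_one, map_pow, hy.pow_succ_eq,
    hy.one_sub.pow_succ_eq, sub_sub_cancel]

theorem h91_eps_idem (h : h91_PCH t π) (htr : ∀ x, residue B (t x) = (ρ x).trace)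
    {u : B} (hu : 2 * u = 1) {n : ℕ} (hn : maximalIdeal B ^ n = ⊥) {y : Γ}
    (hy1 : (ρ y).trace = 1) (hy0 : (ρ y).det = 0) : IsIdempotentElem (π (h91_eps y n)) := by
  have ha : 1 - t y ∈ maximalIdeal B := by
    rw [← IsLocalRing.residue_eq_zero_iff, map_sub, map_one, htr, hy1, sub_self]
  have hb : h91_dl t u y ∈ maximalIdeal B := by
    rw [← IsLocalRing.residue_eq_zero_iff, h91_res_dl htr hu, hy0]
  have hn1 : maximalIdeal B ^ (n + 1) = ⊥ := by rw [pow_succ, hn, Ideal.bot_mul]
  have hX : π y - π y ^ 2 = (1 - t y) • π y + h91_dl t u y • (1 : Module.End B M) := by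
    have h1 := h91_ch h hu y
    rw [pow_two]
    linear_combination (norm := module) -h1
  have h0 : (π y - π y ^ 2) ^ (n + 1) = 0 := by
    rw [hX]
    exact h91_nilp (maximalIdeal B) (n + 1) hn1 ha hb (π y)
  have := isIdempotentElem_one_sub_one_sub_pow_pow (π y) (n + 1) h0
  unfold h91_eps
  rw [map_sub, map_one, map_pow, map_sub, map_one, map_pow]
  exact this

end residual


section corner

variable {B : Type*} [CommRing B] {Γ : Type*} [Ring Γ] [Algebra B Γ]
variable {M : Type*} [AddCommGroup M] [Module B M]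
variable {t : Γ →ₗ[B] B} {π : Γ →ₐ[B] Module.End B M}

/-- Corner lemma: `e π(x) e = t(ε x ε) e` for an idempotent `e = π ε` with `t ε = 1`. -/
theorem h91_corner (h : h91_PCH t π) {ε : Γ} (hid : IsIdempotentElem (π ε)) (hε : t ε = 1)
    (x : Γ) : π ε * π x * π ε = t (ε * x * ε) • π ε := by
  have h1 : h91_adj t π ε = 1 - π ε := by unfold h91_adj; rw [hε, one_smul]
  have h2 : h91_adj t π (ε * x * ε) = (1 - π ε) * (h91_adj t π x * (1 - π ε)) := by
    rw [h91_adj_mul h, h91_adj_mul h, h1]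
  have h3 : π ε * π x * π ε + (1 - π ε) * (h91_adj t π x * (1 - π ε)) =
      t (ε * x * ε) • (1 : Module.End B M) := by
    rw [← h2, ← map_mul, ← map_mul]
    unfold h91_adj
    abel
  have h5 : π ε * (1 - π ε) = 0 := by rw [mul_sub, mul_one, hid.eq, sub_self]
  calc π ε * π x * π ε = π ε * (π ε * π x * π ε) := by
        rw [← mul_assoc, ← mul_assoc, hid.eq]
    _ = π ε * (π ε * π x * π ε) + π ε * ((1 - π ε) * (h91_adj t π x * (1 - π ε))) := by
        rw [← mul_assoc (π ε) (1 - π ε), h5, zero_mul, add_zero]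
    _ = π ε * (t (ε * x * ε) • (1 : Module.End B M)) := by rw [← mul_add, h3]
    _ = t (ε * x * ε) • π ε := by rw [mul_smul_comm, mul_one]

theorem h91_t_comm (h : h91_PCH t π) (hf : ∀ b : B, b • (1 : Module.End B M) = 0 → b = 0)
    (x z : Γ) : t (x * z) = t (z * x) := by
  have h1 := h x z
  have h2 := h z x
  have h3 : (t (x * z) - t (z * x)) • (1 : Module.End B M) = 0 := by
    linear_combination (norm := module) h2 - h1
  exact sub_eq_zero.1 (hf _ h3)

end corner

section faithful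

variable {B : Type*} [CommRing B] [IsLocalRing B] {Γ : Type*} [Ring Γ] [Algebra B Γ]
variable {M : Type*} [AddCommGroup M] [Module B M]
variable {t : Γ →ₗ[B] B} {π : Γ →ₐ[B] Module.End B M}
variable {ρ : Γ →ₐ[B] Matrix (Fin 2) (Fin 2) (ResidueField B)}

theorem h91_t_one (h : h91_PCH t π) (hf : ∀ b : B, b • (1 : Module.End B M) = 0 → b = 0)
    (htr : ∀ x, residue B (t x) = (ρ x).trace) : t 1 = 2 := by
  have h1 := h 1 1
  simp only [mul_one, map_one] at h1
  have h2 : ((t 1 - 1) * (t 1 - 2)) • (1 : Module.End B M) = 0 := by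
    linear_combination (norm := module) h1
  have h3 := hf _ h2
  have hunit : IsUnit (t 1 - 1) := by
    rw [← IsLocalRing.residue_ne_zero_iff_isUnit, map_sub, htr, map_one (residue B),
      map_one ρ, Matrix.trace_one]
    norm_num
  exact sub_eq_zero.1 (hunit.mul_right_eq_zero.1 h3)

theorem h91_corner_faithful (h : h91_PCH t π)
    (hf : ∀ b : B, b • (1 : Module.End B M) = 0 → b = 0)
    (htr : ∀ x, residue B (t x) = (ρ x).trace) {u : B} (hu : 2 * u = 1) {ε w z : Γ}
    (hε : ρ ε = !![1, 0; 0, 0]) (hw : ρ w = !![0, 1; 0, 0]) (hz : ρ z = !![0, 0; 1, 0])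
    {b : B} (hb : b • π ε = 0) : b = 0 := by
  apply hf
  apply h91_smul_one_eq_zero h htr hu (ξ := ε + z * ε * w)
  · rw [map_add, map_mul, map_mul, hε, hw, hz]
    simp [Matrix.det_fin_two]
  · have h1 : b • (π z * π ε * π w) = π z * (b • π ε) * π w := by
      rw [mul_smul_comm, smul_mul_assoc]
    rw [map_add, map_mul, map_mul, smul_add, hb, h1, hb, mul_zero, zero_mul, add_zero]

theorem h91_corner_faithful' (h : h91_PCH t π)
    (hf : ∀ b : B, b • (1 : Module.End B M) = 0 → b = 0)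
    (htr : ∀ x, residue B (t x) = (ρ x).trace) {u : B} (hu : 2 * u = 1) {ε w z : Γ}
    (hε : ρ ε = !![1, 0; 0, 0]) (hw : ρ w = !![0, 1; 0, 0]) (hz : ρ z = !![0, 0; 1, 0])
    {b : B} (hb : b • (1 - π ε) = 0) : b = 0 := by
  apply hf
  apply h91_smul_one_eq_zero h htr hu (ξ := (1 - ε) + w * (1 - ε) * z)
  · rw [map_add, map_mul, map_mul, map_sub, map_one, hε, hw, hz]
    simp [Matrix.det_fin_two, Matrix.one_fin_two]
  · have h1 : b • (π w * (1 - π ε) * π z) = π w * (b • (1 - π ε)) * π z := by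
      rw [mul_smul_comm, smul_mul_assoc]
    rw [map_add, map_mul, map_mul, map_sub, map_one, smul_add, hb, h1, hb, mul_zero, zero_mul,
      add_zero]

theorem h91_t_eps (h : h91_PCH t π) (hf : ∀ b : B, b • (1 : Module.End B M) = 0 → b = 0)
    (htr : ∀ x, residue B (t x) = (ρ x).trace) {u : B} (hu : 2 * u = 1) {ε w z : Γ}
    (hε : ρ ε = !![1, 0; 0, 0]) (hw : ρ w = !![0, 1; 0, 0]) (hz : ρ z = !![0, 0; 1, 0])
    (hid : IsIdempotentElem (π ε)) : t ε = 1 := by
  have hA := h91_mul_adj h hu ε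
  unfold h91_adj at hA
  rw [mul_sub, mul_smul_comm, mul_one, hid.eq] at hA
  have h5 : (1 - π ε) * π ε = 0 := by rw [sub_mul, one_mul, hid.eq, sub_self]
  have hB : h91_dl t u ε • (1 - π ε) = 0 := by
    have h6 := congrArg (fun f => (1 - π ε) * f) hA
    simp only [mul_sub, mul_smul_comm, mul_one, h5, smul_zero, sub_self] at h6
    exact h6.symm
  have hdl : h91_dl t u ε = 0 := h91_corner_faithful' h hf htr hu hε hw hz hB
  rw [hdl, zero_smul] at hA
  have hC : (t ε - 1) • π ε = 0 := by rw [sub_smul, one_smul]; exact hA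
  exact sub_eq_zero.1 (h91_corner_faithful h hf htr hu hε hw hz hC)

end faithful


section units

variable {B : Type*} [CommRing B] {Γ : Type*} [Ring Γ] [Algebra B Γ]
variable {M : Type*} [AddCommGroup M] [Module B M]

/-- A system of `2 × 2` matrix units acting on a module, with the four corner coefficient
functions. -/
structure h91_Units (π : Γ →ₐ[B] Module.End B M) (ε w0 z0 : Γ) (a b c d : Γ → B) : Prop where
  ee : π ε * π ε = π ε
  eW : π ε * π w0 = π w0
  We : π w0 * π ε = 0
  Ze : π z0 * π ε = π z0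
  eZ : π ε * π z0 = 0
  WZ : π w0 * π z0 = π ε
  ZW : π z0 * π w0 = 1 - π ε
  k1 : ∀ x, π ε * π x * π ε = a x • π ε
  k2 : ∀ x, π ε * π x * π z0 = b x • π ε
  k3 : ∀ x, π w0 * π x * π ε = c x • π ε
  k4 : ∀ x, π w0 * π x * π z0 = d x • π ε

theorem h91_units_of {t : Γ →ₗ[B] B} {π : Γ →ₐ[B] Module.End B M} (h : h91_PCH t π) {ε : Γ}
    (hid : IsIdempotentElem (π ε)) (hε : t ε = 1) (ht1 : t 1 = 2)
    (hcomm : ∀ x z, t (x * z) = t (z * x)) (w z : Γ) (v : B)
    (hv : t ((ε * w * (1 - ε)) * ((1 - ε) * z * ε)) * v = 1) :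
    h91_Units π ε (ε * w * (1 - ε)) (v • ((1 - ε) * z * ε))
      (fun x => t (ε * x * ε))
      (fun x => t (ε * (x * (v • ((1 - ε) * z * ε))) * ε))
      (fun x => t (ε * ((ε * w * (1 - ε)) * x) * ε))
      (fun x => t (ε * ((ε * w * (1 - ε)) * x * (v • ((1 - ε) * z * ε))) * ε)) := by
  have hee : π ε * π ε = π ε := hid.eq
  have h1e : (1 - π ε) * π ε = 0 := by rw [sub_mul, one_mul, hee, sub_self]
  have he1 : π ε * (1 - π ε) = 0 := by rw [mul_sub, mul_one, hee, sub_self]
  have hW : π (ε * w * (1 - ε)) = π ε * π w * (1 - π ε) := by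
    rw [map_mul, map_mul, map_sub, map_one]
  have hZ : π (v • ((1 - ε) * z * ε)) = v • ((1 - π ε) * π z * π ε) := by
    rw [map_smul, map_mul, map_mul, map_sub, map_one]
  have hid' : IsIdempotentElem (π (1 - ε)) := by rw [map_sub, map_one]; exact hid.one_sub
  have hε' : t (1 - ε) = 1 := by rw [map_sub, ht1, hε]; norm_num
  have hcor := h91_corner h hid hε
  have hcor' := h91_corner h hid' hε'
  have heW : π ε * π (ε * w * (1 - ε)) = π (ε * w * (1 - ε)) := by
    rw [hW, ← mul_assoc, ← mul_assoc, hee]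
  have hZe : π (v • ((1 - ε) * z * ε)) * π ε = π (v • ((1 - ε) * z * ε)) := by
    rw [hZ, smul_mul_assoc, mul_assoc, hee]
  refine ⟨hee, heW, ?_, hZe, ?_, ?_, ?_, hcor, ?_, ?_, ?_⟩
  · rw [hW, mul_assoc, h1e, mul_zero]
  · rw [hZ, mul_smul_comm, ← mul_assoc, ← mul_assoc, he1, zero_mul, zero_mul, smul_zero]
  · rw [← map_mul, mul_smul_comm, map_smul]
    have hx : ε * w * (1 - ε) * ((1 - ε) * z * ε) = ε * (w * (1 - ε) * ((1 - ε) * z)) * ε := by
      simp only [mul_assoc]
    have h2 : π (ε * w * (1 - ε) * ((1 - ε) * z * ε)) =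
        t (ε * w * (1 - ε) * ((1 - ε) * z * ε)) • π ε := by
      rw [hx, map_mul, map_mul, hcor]
    rw [h2, smul_smul, mul_comm, hv, one_smul]
  · rw [← map_mul, smul_mul_assoc, map_smul]
    have hx : (1 - ε) * z * ε * (ε * w * (1 - ε)) = (1 - ε) * (z * ε * (ε * w)) * (1 - ε) := by
      simp only [mul_assoc]
    have h2 : π ((1 - ε) * z * ε * (ε * w * (1 - ε))) =
        t ((1 - ε) * z * ε * (ε * w * (1 - ε))) • (1 - π ε) := by
      rw [hx, map_mul, map_mul, hcor', map_sub, map_one]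
    rw [h2, smul_smul, hcomm, mul_comm, hv, one_smul]
  · intro x
    calc π ε * π x * π (v • ((1 - ε) * z * ε))
        = π ε * π x * (π (v • ((1 - ε) * z * ε)) * π ε) := by rw [hZe]
      _ = π ε * π (x * (v • ((1 - ε) * z * ε))) * π ε := by
          simp only [map_mul, mul_assoc]
      _ = _ := hcor _
  · intro x
    calc π (ε * w * (1 - ε)) * π x * π ε
        = π ε * π (ε * w * (1 - ε)) * π x * π ε := by rw [heW]
      _ = π ε * π ((ε * w * (1 - ε)) * x) * π ε := by
          simp only [map_mul, mul_assoc]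
      _ = _ := hcor _
  · intro x
    calc π (ε * w * (1 - ε)) * π x * π (v • ((1 - ε) * z * ε))
        = π ε * π (ε * w * (1 - ε)) * π x * (π (v • ((1 - ε) * z * ε)) * π ε) := by
          rw [heW, hZe]
      _ = π ε * π ((ε * w * (1 - ε)) * x * (v • ((1 - ε) * z * ε))) * π ε := by
          simp only [map_mul, mul_assoc]
      _ = _ := hcor _

end units


section existsUnits

variable {B : Type*} [CommRing B] [IsLocalRing B] {Γ : Type*} [Ring Γ] [Algebra B Γ]
variable {M1 : Type*} [AddCommGroup M1] [Module B M1] {M2 : Type*} [AddCommGroup M2] [Module B M2]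
variable {t : Γ →ₗ[B] B} {ρ : Γ →ₐ[B] Matrix (Fin 2) (Fin 2) (ResidueField B)}

theorem h91_exists_units {n : ℕ} (hn : maximalIdeal B ^ n = ⊥) {u : B} (hu : 2 * u = 1)
    (htr : ∀ x, residue B (t x) = (ρ x).trace) (hsurj : Function.Surjective ρ)
    {π1 : Γ →ₐ[B] Module.End B M1} {π2 : Γ →ₐ[B] Module.End B M2}
    (h1 : h91_PCH t π1) (h2 : h91_PCH t π2)
    (hf : ∀ b : B, b • (1 : Module.End B M1) = 0 → b = 0) :
    ∃ (ε w0 z0 : Γ) (a b c d : Γ → B), h91_Units π1 ε w0 z0 a b c d ∧
      h91_Units π2 ε w0 z0 a b c d ∧ ∀ s : B, s • π1 ε = 0 → s = 0 := by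
  obtain ⟨y, hy⟩ := hsurj !![1, 0; 0, 0]
  obtain ⟨w, hw⟩ := hsurj !![0, 1; 0, 0]
  obtain ⟨z, hz⟩ := hsurj !![0, 0; 1, 0]
  have hyid : IsIdempotentElem (ρ y) := by
    rw [hy]
    unfold IsIdempotentElem
    ext i j
    fin_cases i <;> fin_cases j <;> simp [Matrix.mul_apply, Fin.sum_univ_two]
  have hy1 : (ρ y).trace = 1 := by rw [hy]; simp [Matrix.trace_fin_two]
  have hy0 : (ρ y).det = 0 := by rw [hy]; simp [Matrix.det_fin_two]
  have hε : ρ (h91_eps y n) = !![1, 0; 0, 0] := by rw [h91_eps_res hyid, hy]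
  have hid1 : IsIdempotentElem (π1 (h91_eps y n)) := h91_eps_idem h1 htr hu hn hy1 hy0
  have hid2 : IsIdempotentElem (π2 (h91_eps y n)) := h91_eps_idem h2 htr hu hn hy1 hy0
  have ht1 : t 1 = 2 := h91_t_one h1 hf htr
  have hcomm := h91_t_comm h1 hf
  have htε : t (h91_eps y n) = 1 := h91_t_eps h1 hf htr hu hε hw hz hid1
  have hc : IsUnit (t ((h91_eps y n * w * (1 - h91_eps y n)) *
      ((1 - h91_eps y n) * z * h91_eps y n))) := by
    rw [← IsLocalRing.residue_ne_zero_iff_isUnit, htr]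
    simp only [map_mul, map_sub, map_one, hε, hw, hz]
    simp [Matrix.trace_fin_two, Matrix.one_fin_two]
  obtain ⟨v, hv⟩ := hc.exists_right_inv
  exact ⟨h91_eps y n, _, _, _, _, _, _, h91_units_of h1 hid1 htε ht1 hcomm w z v hv,
    h91_units_of h2 hid2 htε ht1 hcomm w z v hv,
    fun s hs => h91_corner_faithful h1 hf htr hu hε hw hz hs⟩

end existsUnits

section operator

variable {B : Type*} [CommRing B] {Γ : Type*} [Ring Γ] [Algebra B Γ]
variable {M : Type*} [AddCommGroup M] [Module B M]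
variable {π : Γ →ₐ[B] Module.End B M} {ε w0 z0 : Γ} {a b c d : Γ → B}

theorem h91_Units.one_eq (U : h91_Units π ε w0 z0 a b c d) :
    π ε + π z0 * π w0 = 1 := by rw [U.ZW, add_sub_cancel]

theorem h91_Units.o1 (U : h91_Units π ε w0 z0 a b c d) (x : Γ) :
    π ε * π x = a x • π ε + b x • π w0 := by
  calc π ε * π x = π ε * π x * (π ε + π z0 * π w0) := by rw [U.one_eq, mul_one]
    _ = π ε * π x * π ε + π ε * π x * π z0 * π w0 := by rw [mul_add, ← mul_assoc]
    _ = a x • π ε + b x • π w0 := by rw [U.k1, U.k2, smul_mul_assoc, U.eW]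

theorem h91_Units.o2 (U : h91_Units π ε w0 z0 a b c d) (x : Γ) :
    π w0 * π x = c x • π ε + d x • π w0 := by
  calc π w0 * π x = π w0 * π x * (π ε + π z0 * π w0) := by rw [U.one_eq, mul_one]
    _ = π w0 * π x * π ε + π w0 * π x * π z0 * π w0 := by rw [mul_add, ← mul_assoc]
    _ = c x • π ε + d x • π w0 := by rw [U.k3, U.k4, smul_mul_assoc, U.eW]

theorem h91_Units.o3 (U : h91_Units π ε w0 z0 a b c d) (x : Γ) :
    π x * π ε = a x • π ε + c x • π z0 := by
  calc π x * π ε = (π ε + π z0 * π w0) * (π x * π ε) := by rw [U.one_eq, one_mul]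
    _ = π ε * π x * π ε + π z0 * (π w0 * π x * π ε) := by
        rw [add_mul]; simp only [mul_assoc]
    _ = a x • π ε + c x • π z0 := by rw [U.k1, U.k3, mul_smul_comm, U.Ze]

theorem h91_Units.o4 (U : h91_Units π ε w0 z0 a b c d) (x : Γ) :
    π x * π z0 = b x • π ε + d x • π z0 := by
  calc π x * π z0 = (π ε + π z0 * π w0) * (π x * π z0) := by rw [U.one_eq, one_mul]
    _ = π ε * π x * π z0 + π z0 * (π w0 * π x * π z0) := by
        rw [add_mul]; simp only [mul_assoc]
    _ = b x • π ε + d x • π z0 := by rw [U.k2, U.k4, mul_smul_comm, U.Ze]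

end operator


section construction

variable {B : Type*} [CommRing B] {Γ : Type*} [Ring Γ] [Algebra B Γ]
variable {M1 : Type*} [AddCommGroup M1] [Module B M1] {M2 : Type*} [AddCommGroup M2] [Module B M2]

/-- The subquotient construction from a common system of matrix units. -/
theorem h91_subquot_of_units [Module.Finite B M1] [Module.Finite B M2]
    {π1 : Γ →ₐ[B] Module.End B M1} {π2 : Γ →ₐ[B] Module.End B M2} {ε w0 z0 : Γ}
    {a b c d : Γ → B}
    (U1 : h91_Units π1 ε w0 z0 a b c d) (U2 : h91_Units π2 ε w0 z0 a b c d)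
    (hfe : ∀ s : B, s • π1 ε = 0 → s = 0) :
    ∃ (n : ℕ) (S : Submodule B (Fin n → M1)) (Ψ : S →ₗ[B] M2),
      (∀ x : Γ, ∀ m ∈ S, (fun i => π1 x (m i)) ∈ S) ∧ Function.Surjective Ψ ∧
      ∀ (x : Γ) (m : S) (hm : (fun i => π1 x (m.1 i)) ∈ S), Ψ ⟨_, hm⟩ = π2 x (Ψ m) := by
  classical
  obtain ⟨r, gu, hgu⟩ := Module.Finite.exists_fin (R := B) (M := M1)
  obtain ⟨s, gv, hgv⟩ := Module.Finite.exists_fin (R := B) (M := M2)
  let idx : Fin (r * s) → Fin r × Fin s := finProdFinEquiv.symm
  let jmap : (Fin s → B) →ₗ[B] (Fin (r * s) → M1) :=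
    LinearMap.pi fun p =>
      (LinearMap.proj (idx p).2 : (Fin s → B) →ₗ[B] B).smulRight (π1 ε (gu (idx p).1))
  have hjmap : ∀ β p, jmap β p = β (idx p).2 • π1 ε (gu (idx p).1) := fun β p => rfl
  have hinj : Function.Injective jmap := by
    rw [← LinearMap.ker_eq_bot, LinearMap.ker_eq_bot']
    intro β hβ
    funext j
    apply hfe
    apply LinearMap.ext_on hgu
    rintro _ ⟨i, rfl⟩
    have h1 := congrFun hβ (finProdFinEquiv (i, j))
    rw [hjmap] at h1
    simpa [idx] using h1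
  let N : Submodule B (Fin (r * s) → M1) := LinearMap.range jmap
  let φ0 : (Fin s → B) →ₗ[B] M2 := Fintype.linearCombination B (fun j => π2 ε (gv j))
  let jeq : (Fin s → B) ≃ₗ[B] N := LinearEquiv.ofInjective jmap hinj
  let φ : N →ₗ[B] M2 := φ0 ∘ₗ jeq.symm.toLinearMap
  -- componentwise action
  let cw : Module.End B M1 → ((Fin (r * s) → M1) →ₗ[B] (Fin (r * s) → M1)) :=
    fun f => f.compLeft (Fin (r * s))
  have hcw : ∀ f m p, cw f m p = f (m p) := fun f m p => rfl
  -- facts about `N`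
  have F1 : ∀ m ∈ N, cw (π1 ε) m = m := by
    rintro _ ⟨β, rfl⟩
    funext p
    rw [hcw, hjmap, map_smul, ← Module.End.mul_apply, U1.ee]
  have F2 : ∀ m ∈ N, cw (π1 w0) m = 0 := by
    rintro _ ⟨β, rfl⟩
    funext p
    rw [hcw, hjmap, map_smul, ← Module.End.mul_apply, U1.We]
    simp
  have F3 : ∀ m : N, π2 ε (φ m) = φ m := by
    intro m
    show π2 ε (φ0 (jeq.symm m)) = φ0 (jeq.symm m)
    rw [Fintype.linearCombination_apply, map_sum]
    refine Finset.sum_congr rfl fun j _ => ?_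
    rw [map_smul, ← Module.End.mul_apply, U2.ee]
  have F4 : ∀ v : M2, ∃ m : N, φ m = π2 ε v := by
    intro v
    have hv : v ∈ Submodule.span B (Set.range gv) := by rw [hgv]; trivial
    obtain ⟨β, rfl⟩ := (Submodule.mem_span_range_iff_exists_fun B).1 hv
    refine ⟨jeq β, ?_⟩
    show φ0 (jeq.symm (jeq β)) = _
    rw [LinearEquiv.symm_apply_apply, Fintype.linearCombination_apply, map_sum]
    refine Finset.sum_congr rfl fun j _ => ?_
    rw [map_smul]
  let S : Submodule B (Fin (r * s) → M1) := N.comap (cw (π1 ε)) ⊓ N.comap (cw (π1 w0))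
  have hS : ∀ m, m ∈ S ↔ cw (π1 ε) m ∈ N ∧ cw (π1 w0) m ∈ N := fun m => Iff.rfl
  -- the two projections
  let p1 : S →ₗ[B] N := (cw (π1 ε)).restrict (fun m hm => ((hS m).1 hm).1)
  let p2 : S →ₗ[B] N := (cw (π1 w0)).restrict (fun m hm => ((hS m).1 hm).2)
  have hp1 : ∀ m : S, (p1 m : Fin (r * s) → M1) = cw (π1 ε) m.1 := fun m => rfl
  have hp2 : ∀ m : S, (p2 m : Fin (r * s) → M1) = cw (π1 w0) m.1 := fun m => rfl
  let Ψ : S →ₗ[B] M2 := φ ∘ₗ p1 + (π2 z0) ∘ₗ φ ∘ₗ p2
  have hΨ : ∀ m : S, Ψ m = φ (p1 m) + π2 z0 (φ (p2 m)) := fun m => rfl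
  -- stability identities
  have hst1 : ∀ (x : Γ) (m : Fin (r * s) → M1),
      cw (π1 ε) (fun i => π1 x (m i)) = a x • cw (π1 ε) m + b x • cw (π1 w0) m := by
    intro x m
    funext p
    have h1 := congrArg (fun f : Module.End B M1 => f (m p)) (U1.o1 x)
    simpa [hcw, Module.End.mul_apply] using h1
  have hst2 : ∀ (x : Γ) (m : Fin (r * s) → M1),
      cw (π1 w0) (fun i => π1 x (m i)) = c x • cw (π1 ε) m + d x • cw (π1 w0) m := by
    intro x m
    funext p
    have h1 := congrArg (fun f : Module.End B M1 => f (m p)) (U1.o2 x)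
    simpa [hcw, Module.End.mul_apply] using h1
  have hstab : ∀ x : Γ, ∀ m ∈ S, (fun i => π1 x (m i)) ∈ S := by
    intro x m hm
    obtain ⟨hm1, hm2⟩ := (hS m).1 hm
    refine (hS _).2 ⟨?_, ?_⟩
    · rw [hst1]
      exact N.add_mem (N.smul_mem _ hm1) (N.smul_mem _ hm2)
    · rw [hst2]
      exact N.add_mem (N.smul_mem _ hm1) (N.smul_mem _ hm2)
  refine ⟨r * s, S, Ψ, hstab, ?_, ?_⟩
  · -- surjectivity
    intro v
    obtain ⟨n1, hn1⟩ := F4 v
    obtain ⟨n2, hn2⟩ := F4 (π2 w0 v)
    have hn2' : φ n2 = π2 w0 v := by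
      rw [hn2, ← Module.End.mul_apply, U2.eW]
    have hm1 : cw (π1 ε) ((n1 : Fin (r * s) → M1) + cw (π1 z0) (n2 : Fin (r * s) → M1))
        = (n1 : Fin (r * s) → M1) := by
      rw [map_add, F1 _ n1.2]
      have : cw (π1 ε) (cw (π1 z0) (n2 : Fin (r * s) → M1)) = 0 := by
        funext p
        rw [hcw, hcw, ← Module.End.mul_apply, U1.eZ]
        simp
      rw [this, add_zero]
    have hm2 : cw (π1 w0) ((n1 : Fin (r * s) → M1) + cw (π1 z0) (n2 : Fin (r * s) → M1))
        = (n2 : Fin (r * s) → M1) := by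
      rw [map_add, F2 _ n1.2, zero_add]
      have : cw (π1 w0) (cw (π1 z0) (n2 : Fin (r * s) → M1)) = cw (π1 ε) (n2 : Fin (r * s) → M1) := by
        funext p
        rw [hcw, hcw, hcw, ← Module.End.mul_apply, U1.WZ]
      rw [this, F1 _ n2.2]
    have hmS : (n1 : Fin (r * s) → M1) + cw (π1 z0) (n2 : Fin (r * s) → M1) ∈ S := by
      refine (hS _).2 ⟨?_, ?_⟩
      · rw [hm1]; exact n1.2
      · rw [hm2]; exact n2.2
    refine ⟨⟨_, hmS⟩, ?_⟩
    have e1 : p1 ⟨_, hmS⟩ = n1 := Subtype.ext (by rw [hp1]; exact hm1)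
    have e2 : p2 ⟨_, hmS⟩ = n2 := Subtype.ext (by rw [hp2]; exact hm2)
    rw [hΨ, e1, e2, hn1, hn2', ← Module.End.mul_apply (π2 z0) (π2 w0)]
    have h1 := congrArg (fun f : Module.End B M2 => f v) U2.one_eq
    simpa using h1
  · -- equivariance
    intro x m hm
    have e1 : p1 ⟨_, hm⟩ = a x • p1 m + b x • p2 m := Subtype.ext (by
      rw [hp1]
      show cw (π1 ε) (fun i => π1 x (m.1 i)) = _
      rw [hst1]
      rfl)
    have e2 : p2 ⟨_, hm⟩ = c x • p1 m + d x • p2 m := Subtype.ext (by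
      rw [hp2]
      show cw (π1 w0) (fun i => π1 x (m.1 i)) = _
      rw [hst2]
      rfl)
    rw [hΨ, hΨ, e1, e2]
    have g1 : π2 x (φ (p1 m)) = a x • φ (p1 m) + c x • π2 z0 (φ (p1 m)) := by
      have h1 := congrArg (fun f : Module.End B M2 => f (φ (p1 m))) (U2.o3 x)
      simp only [Module.End.mul_apply, LinearMap.add_apply, LinearMap.smul_apply, F3] at h1
      exact h1
    have g2 : π2 x (π2 z0 (φ (p2 m))) = b x • φ (p2 m) + d x • π2 z0 (φ (p2 m)) := by
      have h1 := congrArg (fun f : Module.End B M2 => f (φ (p2 m))) (U2.o4 x)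
      simp only [Module.End.mul_apply, LinearMap.add_apply, LinearMap.smul_apply, F3] at h1
      exact h1
    rw [map_add (π2 x), g1, g2]
    simp only [map_add, map_smul]
    abel

end construction


section main

variable {B : Type*} [CommRing B] [IsLocalRing B]

/-- **Abstract form**: two Cayley–Hamilton modules over `Γ`, the first one faithful. -/
theorem h91_subquot_core {Γ : Type*} [Ring Γ] [Algebra B Γ]
    {M1 : Type*} [AddCommGroup M1] [Module B M1] {M2 : Type*} [AddCommGroup M2] [Module B M2]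
    [Module.Finite B M1] [Module.Finite B M2]
    {n : ℕ} (hn : maximalIdeal B ^ n = ⊥) {u : B} (hu : 2 * u = 1)
    {t : Γ →ₗ[B] B} {ρ : Γ →ₐ[B] Matrix (Fin 2) (Fin 2) (ResidueField B)}
    (htr : ∀ x, residue B (t x) = (ρ x).trace) (hsurj : Function.Surjective ρ)
    {π1 : Γ →ₐ[B] Module.End B M1} {π2 : Γ →ₐ[B] Module.End B M2}
    (h1 : h91_PCH t π1) (h2 : h91_PCH t π2)
    (hf : ∀ b : B, (∀ m : M1, b • m = 0) → b = 0) :
    ∃ (n : ℕ) (S : Submodule B (Fin n → M1)) (Ψ : S →ₗ[B] M2),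
      (∀ x : Γ, ∀ m ∈ S, (fun i => π1 x (m i)) ∈ S) ∧ Function.Surjective Ψ ∧
      ∀ (x : Γ) (m : S) (hm : (fun i => π1 x (m.1 i)) ∈ S), Ψ ⟨_, hm⟩ = π2 x (Ψ m) := by
  have hf' : ∀ b : B, b • (1 : Module.End B M1) = 0 → b = 0 := by
    intro b hb
    apply hf b
    intro m
    have h3 := congrArg (fun f : Module.End B M1 => f m) hb
    simpa using h3
  obtain ⟨ε, w0, z0, a, b, c, d, U1, U2, hfe⟩ := h91_exists_units hn hu htr hsurj h1 h2 hf'
  exact h91_subquot_of_units U1 U2 hfe

variable {G : Type*} [Group G]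

/-- The trace functional on the group algebra. -/
noncomputable def h91_tG (t : G → B) : MonoidAlgebra B G →ₗ[B] B :=
  (Finsupp.linearCombination B t) ∘ₗ (MonoidAlgebra.coeffLinearEquiv B).toLinearMap

omit [IsLocalRing B] in
theorem h91_tG_of (t : G → B) (g : G) : h91_tG t (MonoidAlgebra.of B G g) = t g := by
  simp [h91_tG, MonoidAlgebra.of_apply]

omit [IsLocalRing B] in
theorem h91_pch_group {M : Type*} [AddCommGroup M] [Module B M] (d : G →* Bˣ) (t : G → B)
    (r : G →* Module.End B M) (h : ∀ g, r g + (d g : B) • r g⁻¹ = t g • 1) :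
    h91_PCH (h91_tG t) (MonoidAlgebra.lift B (Module.End B M) G r) := by
  have key : ∀ g k : G, r (g * k) + r (k * g) + (t g * t k - t (g * k)) • (1 : Module.End B M)
      = t k • r g + t g • r k := by
    intro g k
    have hg : (d g : B) • r g⁻¹ = t g • 1 - r g := eq_sub_of_add_eq' (h g)
    have hk : (d k : B) • r k⁻¹ = t k • 1 - r k := eq_sub_of_add_eq' (h k)
    have hgk : (d (g * k) : B) • r (g * k)⁻¹ = t (g * k) • 1 - r (g * k) :=
      eq_sub_of_add_eq' (h (g * k))
    have h1 : ((d k : B) • r k⁻¹) * ((d g : B) • r g⁻¹) = (d (g * k) : B) • r (g * k)⁻¹ := by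
      rw [smul_mul_smul_comm, mul_inv_rev, map_mul r, map_mul d, Units.val_mul,
        mul_comm (d g : B)]
    rw [hg, hk, hgk] at h1
    simp only [sub_mul, mul_sub, smul_mul_assoc, mul_smul_comm, one_mul, mul_one, ← map_mul]
      at h1
    linear_combination (norm := module) h1
  intro x z
  induction x using MonoidAlgebra.induction_on generalizing z with
  | of g =>
    induction z using MonoidAlgebra.induction_on with
    | of k =>
      rw [← map_mul, ← map_mul, MonoidAlgebra.lift_of, MonoidAlgebra.lift_of,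
        MonoidAlgebra.lift_of, MonoidAlgebra.lift_of, h91_tG_of, h91_tG_of, h91_tG_of]
      exact key g k
    | add z z' hz hz' =>
      simp only [mul_add, add_mul, map_add]
      linear_combination (norm := module) hz + hz'
    | smul c z hz =>
      simp only [mul_smul_comm, smul_mul_assoc, map_smul, smul_eq_mul]
      linear_combination (norm := module) c • hz
  | add x x' hx hx' =>
    simp only [mul_add, add_mul, map_add]
    linear_combination (norm := module) hx z + hx' z
  | smul c x hx =>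
    simp only [mul_smul_comm, smul_mul_assoc, map_smul, smul_eq_mul]
    linear_combination (norm := module) c • hx z

/-- **CH-SUBQUOT.** Over a local ring `B` with nilpotent maximal ideal and `2` invertible, let
`(t, d)` be a trace/determinant pair on a group `G` whose residual trace is that of a
representation `ρbar : G → GL₂(k_B)` spanning `M₂(k_B)`.  Then every finite Cayley–Hamilton
module `M2` (i.e. `g + d(g) g⁻¹ = t(g)` on it) is a `G`-equivariant quotient of a `G`-stable
submodule of `M1 ^ n`, for any *faithful* finite Cayley–Hamilton module `M1`. -/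
theorem h91_ch_subquot (hnil : ∃ n, maximalIdeal B ^ n = ⊥) (h2 : IsUnit (2 : B))
    (d : G →* Bˣ) (t : G → B)
    (ρbar : G →* Matrix (Fin 2) (Fin 2) (ResidueField B))
    (htr : ∀ g, (ρbar g).trace = residue B (t g))
    (hspan : Submodule.span (ResidueField B) (Set.range ρbar) = ⊤)
    {M1 : Type*} [AddCommGroup M1] [Module B M1] [Module.Finite B M1]
    {M2 : Type*} [AddCommGroup M2] [Module B M2] [Module.Finite B M2]
    (hfaith : ∀ b : B, (∀ m : M1, b • m = 0) → b = 0)
    (ρ1 : G →* Module.End B M1) (ρ2 : G →* Module.End B M2)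
    (h1 : ∀ g, ρ1 g + (d g : B) • ρ1 g⁻¹ = t g • 1)
    (h2' : ∀ g, ρ2 g + (d g : B) • ρ2 g⁻¹ = t g • 1) :
    ∃ (n : ℕ) (S : Submodule B (Fin n → M1)) (Ψ : S →ₗ[B] M2),
      (∀ g, ∀ m ∈ S, (fun i => ρ1 g (m i)) ∈ S) ∧ Function.Surjective Ψ ∧
      ∀ g (m : S) (hm : (fun i => ρ1 g (m.1 i)) ∈ S), Ψ ⟨_, hm⟩ = ρ2 g (Ψ m) := by
  obtain ⟨n, hn⟩ := hnil
  obtain ⟨u, hu⟩ := h2.exists_right_inv
  let ρ : MonoidAlgebra B G →ₐ[B] Matrix (Fin 2) (Fin 2) (ResidueField B) :=
    MonoidAlgebra.lift B _ G ρbar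
  have hρ : ∀ g, ρ (MonoidAlgebra.of B G g) = ρbar g := fun g => MonoidAlgebra.lift_of _ _
  have htrΓ : ∀ x, residue B (h91_tG t x) = (ρ x).trace := by
    intro x
    induction x using MonoidAlgebra.induction_on with
    | of g => rw [h91_tG_of, hρ]; exact (htr g).symm
    | add x y hx hy => rw [map_add, map_add, map_add, Matrix.trace_add, hx, hy]
    | smul c x hx =>
      have e1 : h91_tG t (c • x) = c * h91_tG t x := by rw [map_smul, smul_eq_mul]
      have e2 : ρ (c • x) = c • ρ x := map_smul ρ c x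
      rw [e1, e2, map_mul, hx, Matrix.trace_smul, Algebra.smul_def,
        IsLocalRing.ResidueField.algebraMap_eq]
  have hsurj : Function.Surjective ρ := by
    intro A
    have hA : A ∈ Submodule.span (ResidueField B) (Set.range ρbar) := by rw [hspan]; trivial
    induction hA using Submodule.span_induction with
    | mem A hA =>
      obtain ⟨g, rfl⟩ := hA
      exact ⟨MonoidAlgebra.of B G g, hρ g⟩
    | zero => exact ⟨0, map_zero _⟩
    | add A A' _ _ hA hA' =>
      obtain ⟨x, rfl⟩ := hA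
      obtain ⟨x', rfl⟩ := hA'
      exact ⟨x + x', map_add _ _ _⟩
    | smul c A _ hA =>
      obtain ⟨x, rfl⟩ := hA
      obtain ⟨r, rfl⟩ := IsLocalRing.residue_surjective c
      refine ⟨r • x, ?_⟩
      rw [map_smul]
      ext i j
      simp [Matrix.smul_apply, Algebra.smul_def, IsLocalRing.ResidueField.algebraMap_eq]
  obtain ⟨N, S, Ψ, hst, hsur, heq⟩ := h91_subquot_core hn hu htrΓ hsurj
    (h91_pch_group d t ρ1 h1) (h91_pch_group d t ρ2 h2') hfaith
  have hπ1 : ∀ g, MonoidAlgebra.lift B (Module.End B M1) G ρ1 (MonoidAlgebra.of B G g) = ρ1 g :=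
    fun g => MonoidAlgebra.lift_of _ _
  have hπ2 : ∀ g, MonoidAlgebra.lift B (Module.End B M2) G ρ2 (MonoidAlgebra.of B G g) = ρ2 g :=
    fun g => MonoidAlgebra.lift_of _ _
  refine ⟨N, S, Ψ, ?_, hsur, ?_⟩
  · intro g m hm
    have h3 := hst (MonoidAlgebra.of B G g) m hm
    simp only [hπ1] at h3
    exact h3
  · intro g m hm
    have h3 := heq (MonoidAlgebra.of B G g) m (by rw [hπ1]; exact hm)
    simp only [hπ1, hπ2] at h3
    exact h3

end main

end Fermat.Agent.S32
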