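import Mathlib
import Fermat.Agent.GAL.h31_S30Pseudo
import Fermat.Agent.GAL.h65_Sat

/-!
# S32, LEVEL SIDE (helper91)

From a level structure `(M, q, r, tM)` (in the sense `h31_IsLevel`) on the Hecke lattice and the
Hecke–Galois datum `H` we produce the input of the Cayley–Hamilton core (Theorem A'):

* `h91_W q r` : the Galois span `W` of `q Λ` inside `M`, with the restricted action `h91_rW`;
* `h91_act` : the ring homomorphism `𝕋 → End W`, `z ↦` the operator induced by `z`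
  (`h91_gen g (ι z y) = act z (h91_gen g y)`), commuting with the Galois action;
* `h91_level_side` : for every `k` there are a level `n`, functions `t : G_ℚ → 𝕋`, `a : G_ℚ → ℕ`
  with `act (t g) = g + a g • g⁻¹` on `W`, `a` multiplicative on `W`, such that
  `act z = 0 → π z ∈ 𝔪 ^ k` (saturation) and `tr ρ(g) ≡ π (t g)` modulo `𝔪 ^ k`
  (weak Chebotarev + Dickson + continuity).
-/

set_option autoImplicit false

open Polynomial

namespace Fermat.Agent.S32

open Fermat.Agent.GAL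

local notation "Γℚ" => (AlgebraicClosure ℚ ≃ₐ[ℚ] AlgebraicClosure ℚ)

section span

variable {Λ : Type} [AddCommGroup Λ] {M : Type} [AddCommGroup M] (q : Λ →+ M)
  {G : Type} [Group G] (r : G →* AddMonoid.End M)

/-- The `G`-span of `q Λ` inside `M`. -/
def h91_W : AddSubgroup M := AddSubgroup.closure {m | ∃ (g : G) (y : Λ), m = r g (q y)}

theorem h91_W_stable (g : G) {m : M} (hm : m ∈ h91_W q r) : r g m ∈ h91_W q r := by
  induction hm using AddSubgroup.closure_induction with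
  | mem x hx =>
    obtain ⟨γ, y, rfl⟩ := hx
    refine AddSubgroup.subset_closure ⟨g * γ, y, ?_⟩
    rw [map_mul]; rfl
  | zero => rw [map_zero]; exact AddSubgroup.zero_mem _
  | add x y _ _ hx hy => rw [map_add]; exact AddSubgroup.add_mem _ hx hy
  | neg x _ hx => rw [map_neg]; exact AddSubgroup.neg_mem _ hx

/-- The action of `G` on the span. -/
def h91_rW : G →* AddMonoid.End ↥(h91_W q r) where
  toFun g := ((r g).comp (h91_W q r).subtype).codRestrict (h91_W q r)
    (fun w => h91_W_stable q r g w.2)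
  map_one' := by
    ext w
    show r 1 (w : M) = (w : M)
    rw [map_one]; rfl
  map_mul' g h := by
    ext w
    show r (g * h) (w : M) = r g (r h (w : M))
    rw [map_mul]; rfl

theorem h91_rW_coe (g : G) (w : ↥(h91_W q r)) :
    ((h91_rW q r g w : ↥(h91_W q r)) : M) = r g (w : M) := rfl

/-- The generators of the span, as elements of the span. -/
def h91_gen (g : G) (y : Λ) : ↥(h91_W q r) :=
  ⟨r g (q y), AddSubgroup.subset_closure ⟨g, y, rfl⟩⟩

theorem h91_gen_coe (g : G) (y : Λ) : ((h91_gen q r g y : ↥(h91_W q r)) : M) = r g (q y) := rfl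

theorem h91_rW_gen (g γ : G) (y : Λ) :
    h91_rW q r g (h91_gen q r γ y) = h91_gen q r (g * γ) y := by
  apply Subtype.ext
  show r g (r γ (q y)) = r (g * γ) (q y)
  rw [map_mul]; rfl

/-- Additive maps on the span are determined by their values on the generators. -/
theorem h91_W_ext {M' : Type*} [AddCommGroup M'] (f f' : ↥(h91_W q r) →+ M')
    (h : ∀ g y, f (h91_gen q r g y) = f' (h91_gen q r g y)) : f = f' := by
  ext ⟨w, hw⟩
  induction hw using AddSubgroup.closure_induction with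
  | mem x hx =>
    obtain ⟨γ, y, rfl⟩ := hx
    exact h γ y
  | zero =>
    have e : (⟨0, AddSubgroup.zero_mem _⟩ : ↥(h91_W q r)) = 0 := rfl
    rw [e, map_zero, map_zero]
  | add x y hx hy ihx ihy =>
    have e : (⟨x + y, AddSubgroup.add_mem _ hx hy⟩ : ↥(h91_W q r)) = ⟨x, hx⟩ + ⟨y, hy⟩ := rfl
    rw [e, map_add, map_add, ihx, ihy]
  | neg x hx ihx =>
    have e : (⟨-x, AddSubgroup.neg_mem _ hx⟩ : ↥(h91_W q r)) = -⟨x, hx⟩ := rfl
    rw [e, map_neg, map_neg, ihx]

variable {R : Type*} [CommRing R] (ι : R →+* Module.End ℤ Λ)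

/-- The endomorphism `f` of the span is induced by `z`. -/
def h91_Ind (z : R) (f : AddMonoid.End ↥(h91_W q r)) : Prop :=
  ∀ g y, f (h91_gen q r g y) = h91_gen q r g (ι z y)

variable {q r ι}

theorem h91_Ind_unique {z : R} {f f' : AddMonoid.End ↥(h91_W q r)} (h : h91_Ind q r ι z f)
    (h' : h91_Ind q r ι z f') : f = f' :=
  h91_W_ext q r f f' (fun g y => (h g y).trans (h' g y).symm)

theorem h91_Ind_add {z z' : R} {f f' : AddMonoid.End ↥(h91_W q r)} (h : h91_Ind q r ι z f)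
    (h' : h91_Ind q r ι z' f') : h91_Ind q r ι (z + z') (f + f') := by
  intro g y
  show f (h91_gen q r g y) + f' (h91_gen q r g y) = _
  rw [h g y, h' g y]
  apply Subtype.ext
  show r g (q (ι z y)) + r g (q (ι z' y)) = r g (q (ι (z + z') y))
  rw [map_add, LinearMap.add_apply, map_add, map_add]

theorem h91_Ind_mul {z z' : R} {f f' : AddMonoid.End ↥(h91_W q r)} (h : h91_Ind q r ι z f)
    (h' : h91_Ind q r ι z' f') : h91_Ind q r ι (z * z') (f * f') := by
  intro g y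
  show f (f' (h91_gen q r g y)) = _
  rw [h' g y, h g _]
  apply Subtype.ext
  show r g (q (ι z (ι z' y))) = r g (q (ι (z * z') y))
  rw [map_mul]; rfl

theorem h91_Ind_one : h91_Ind q r ι (1 : R) (1 : AddMonoid.End ↥(h91_W q r)) := by
  intro g y
  show h91_gen q r g y = _
  rw [map_one]; rfl

theorem h91_Ind_zero : h91_Ind q r ι (0 : R) (0 : AddMonoid.End ↥(h91_W q r)) := by
  intro g y
  show (0 : ↥(h91_W q r)) = _
  apply Subtype.ext
  show (0 : M) = r g (q (ι 0 y))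
  rw [map_zero, LinearMap.zero_apply, map_zero, map_zero]

/-- An endomorphism of `M` commuting with `G` and compatible with `z` on `q Λ` induces `z`. -/
theorem h91_Ind_of_end (z : R) (F : M →+ M) (hF : ∀ g m, F (r g m) = r g (F m))
    (hq : ∀ y, F (q y) = q (ι z y)) : ∃ f, h91_Ind q r ι z f := by
  have hst : ∀ m ∈ h91_W q r, F m ∈ h91_W q r := by
    intro m hm
    induction hm using AddSubgroup.closure_induction with
    | mem x hx =>
      obtain ⟨γ, y, rfl⟩ := hx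
      refine AddSubgroup.subset_closure ⟨γ, ι z y, ?_⟩
      rw [hF, hq]
    | zero => rw [map_zero]; exact AddSubgroup.zero_mem _
    | add x y _ _ hx hy => rw [map_add]; exact AddSubgroup.add_mem _ hx hy
    | neg x _ hx => rw [map_neg]; exact AddSubgroup.neg_mem _ hx
  refine ⟨(F.comp (h91_W q r).subtype).codRestrict (h91_W q r) (fun w => hst w w.2), ?_⟩
  intro g y
  apply Subtype.ext
  show F (r g (q y)) = r g (q (ι z y))
  rw [hF, hq]

variable (q r ι)

/-- The ring homomorphism `z ↦` (the operator induced by `z`). -/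
noncomputable def h91_act (hex : ∀ z : R, ∃ f, h91_Ind q r ι z f) :
    R →+* AddMonoid.End ↥(h91_W q r) where
  toFun z := Classical.choose (hex z)
  map_one' := h91_Ind_unique (Classical.choose_spec (hex 1)) h91_Ind_one
  map_mul' z z' := h91_Ind_unique (Classical.choose_spec (hex (z * z')))
    (h91_Ind_mul (Classical.choose_spec (hex z)) (Classical.choose_spec (hex z')))
  map_zero' := h91_Ind_unique (Classical.choose_spec (hex 0)) h91_Ind_zero
  map_add' z z' := h91_Ind_unique (Classical.choose_spec (hex (z + z')))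
    (h91_Ind_add (Classical.choose_spec (hex z)) (Classical.choose_spec (hex z')))

theorem h91_act_ind (hex : ∀ z : R, ∃ f, h91_Ind q r ι z f) (z : R) :
    h91_Ind q r ι z (h91_act q r ι hex z) :=
  Classical.choose_spec (hex z)

theorem h91_act_gen (hex : ∀ z : R, ∃ f, h91_Ind q r ι z f) (z : R) (g : G) (y : Λ) :
    h91_act q r ι hex z (h91_gen q r g y) = h91_gen q r g (ι z y) :=
  h91_act_ind q r ι hex z g y

theorem h91_act_comm (hex : ∀ z : R, ∃ f, h91_Ind q r ι z f) (z : R) (g : G)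
    (w : ↥(h91_W q r)) :
    h91_act q r ι hex z (h91_rW q r g w) = h91_rW q r g (h91_act q r ι hex z w) := by
  have h := h91_W_ext q r ((h91_act q r ι hex z).comp (h91_rW q r g))
    ((h91_rW q r g).comp (h91_act q r ι hex z)) (fun γ y => by
      show h91_act q r ι hex z (h91_rW q r g (h91_gen q r γ y)) =
        h91_rW q r g (h91_act q r ι hex z (h91_gen q r γ y))
      rw [h91_rW_gen, h91_act_gen, h91_act_gen, h91_rW_gen])
  exact congrArg (fun F : ↥(h91_W q r) →+ ↥(h91_W q r) => F w) h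

end span

section hecke

variable {N : ℕ} [NeZero N] {S : Finset ℕ}

/-- Every Hecke element is realised on `M` by an endomorphism commuting with the Galois action
(adjoin induction on the `T_ℓ`; there are no `U`-generators because `S` contains the primes
dividing `N`). -/
theorem h91_exists_end (hNS : ∀ q : ℕ, q.Prime → q ∣ N → q ∈ S)
    {Λ : Type} [AddCommGroup Λ]
    (ι : CuspForm.heckeAlgebra N 2 (↑S : Set ℕ) →+* Module.End ℤ Λ)
    {M : Type} [AddCommGroup M] (q : Λ →+ M) {G : Type} [Group G] (r : G →* AddMonoid.End M)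
    (tM : Nat.Primes → M →+ M)
    (hhecke : ∀ (ℓ : ℕ) (hℓ : ℓ.Prime) (hℓN : ¬ ℓ ∣ N) (hℓS : ℓ ∉ (↑S : Set ℕ)) (x : Λ),
      q (ι (CuspForm.heckeAlgebra.T hℓ hℓN hℓS) x) = tM ⟨ℓ, hℓ⟩ (q x))
    (hcomm : ∀ (ℓ : Nat.Primes) (g : G) (m : M), tM ℓ (r g m) = r g (tM ℓ m))
    (z : CuspForm.heckeAlgebra N 2 (↑S : Set ℕ)) :
    ∃ F : M →+ M, (∀ g m, F (r g m) = r g (F m)) ∧ ∀ y, F (q y) = q (ι z y) := by
  obtain ⟨z, hz⟩ := z
  induction hz using Algebra.adjoin_induction with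
  | mem x hx =>
    rcases hx with ⟨ℓ, hℓ, hℓN, hℓS, rfl⟩ | ⟨q', hqN, hq, hqS, rfl⟩
    · exact ⟨tM ⟨ℓ, hℓ⟩, fun g m => hcomm _ g m, fun y => (hhecke ℓ hℓ hℓN hℓS y).symm⟩
    · exact absurd (Finset.mem_coe.2 (hNS q' hq hqN)) hqS
  | algebraMap n =>
    refine ⟨n • AddMonoidHom.id M, fun g m => ?_, fun y => ?_⟩
    · show n • r g m = r g (n • m)
      rw [map_zsmul]
    · show n • q y = _
      have e : (⟨algebraMap ℤ _ n, Subalgebra.algebraMap_mem _ n⟩ :
          CuspForm.heckeAlgebra N 2 (↑S : Set ℕ)) = (n : CuspForm.heckeAlgebra N 2 (↑S : Set ℕ)) := by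
        apply Subtype.ext
        simp
      rw [e, map_intCast, Module.End.intCast_apply, map_zsmul]
  | add x y hx hy ihx ihy =>
    obtain ⟨F, hF, hFq⟩ := ihx
    obtain ⟨F', hF', hFq'⟩ := ihy
    refine ⟨F + F', fun g m => ?_, fun v => ?_⟩
    · show F (r g m) + F' (r g m) = r g (F m + F' m)
      rw [hF, hF', map_add]
    · show F (q v) + F' (q v) = _
      have e : (⟨x + y, Subalgebra.add_mem _ hx hy⟩ : CuspForm.heckeAlgebra N 2 (↑S : Set ℕ)) =
          ⟨x, hx⟩ + ⟨y, hy⟩ := rfl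
      rw [e, hFq, hFq', map_add, LinearMap.add_apply, map_add]
  | mul x y hx hy ihx ihy =>
    obtain ⟨F, hF, hFq⟩ := ihx
    obtain ⟨F', hF', hFq'⟩ := ihy
    refine ⟨F.comp F', fun g m => ?_, fun v => ?_⟩
    · show F (F' (r g m)) = r g (F (F' m))
      rw [hF', hF]
    · show F (F' (q v)) = _
      have e : (⟨x * y, Subalgebra.mul_mem _ hx hy⟩ : CuspForm.heckeAlgebra N 2 (↑S : Set ℕ)) =
          ⟨x, hx⟩ * ⟨y, hy⟩ := rfl
      rw [e, hFq', hFq, map_mul]
      rfl

end hecke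

section main

variable {p : ℕ} {N : ℕ} [NeZero N] {S : Finset ℕ}
  {𝒪 : Type} [CommRing 𝒪] [IsDomain 𝒪] [IsDiscreteValuationRing 𝒪]
  [IsAdicComplete (IsLocalRing.maximalIdeal 𝒪) 𝒪]
  {θ : CuspForm.heckeAlgebra N 2 (↑S : Set ℕ) →+* IsLocalRing.ResidueField 𝒪}
  {T : Type} [CommRing T] [IsLocalRing T] [IsNoetherianRing T]
  [IsAdicComplete (IsLocalRing.maximalIdeal T) T] [Algebra 𝒪 T] [IsLocalHom (algebraMap 𝒪 T)]
  [Module.Finite 𝒪 T] [Module.Free 𝒪 T]

/-- **LEVEL SIDE.** For every `k` there is a level `n` such that on the Galois span `W` of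
`qM n Λ` in `M n` the Hecke algebra acts through operators commuting with the Galois action,
every `g` has a Hecke element `t g` and an integer `a g` with `t g = g + a g • g⁻¹` on `W`
(`a` multiplicative on `W`), Hecke elements acting as `0` on `W` have `π`-value in `𝔪 ^ k`, and
`tr ρ(g) ≡ π (t g)` modulo `𝔪 ^ k`. -/
theorem h91_level_side (hp : p.Prime) (hp𝒪 : (p : 𝒪) ∈ IsLocalRing.maximalIdeal 𝒪) (hpS : p ∈ S)
    (hNS : ∀ q : ℕ, q.Prime → q ∣ N → q ∈ S)
    (H : CuspForm.HeckeGaloisRepDatum N (↑S : Set ℕ) 𝒪 θ T)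
    {Λ : Type} [AddCommGroup Λ] [Module.Free ℤ Λ] [Module.Finite ℤ Λ]
    (ι : CuspForm.heckeAlgebra N 2 (↑S : Set ℕ) →+* Module.End ℤ Λ)
    (hι : Function.Injective ι)
    (M : ℕ → Type) [instM : ∀ n, AddCommGroup (M n)] (qM : ∀ n, Λ →+ M n)
    (r : ∀ n, Γℚ →* AddMonoid.End (M n)) (tM : ∀ n, Nat.Primes → M n →+ M n)
    (hlevel : ∀ n : ℕ, h31_IsLevel p N S ι n (qM n) (r n) (tM n)) (hcheb : h65_WCheb) (k : ℕ) :
    ∃ (n : ℕ)
      (act : CuspForm.heckeAlgebra N 2 (↑S : Set ℕ) →+* AddMonoid.End ↥(h91_W (qM n) (r n)))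
      (a : Γℚ → ℕ) (t : Γℚ → CuspForm.heckeAlgebra N 2 (↑S : Set ℕ)),
      (∀ z g w, act z (h91_rW (qM n) (r n) g w) = h91_rW (qM n) (r n) g (act z w)) ∧
      (∀ w : ↥(h91_W (qM n) (r n)), a 1 • w = w) ∧
      (∀ g h (w : ↥(h91_W (qM n) (r n))), a (g * h) • w = a g • a h • w) ∧
      (∀ g w, act (t g) w =
        h91_rW (qM n) (r n) g w + a g • h91_rW (qM n) (r n) g⁻¹ w) ∧
      (∀ z, act z = 0 → H.π z ∈ IsLocalRing.maximalIdeal T ^ k) ∧
      (∀ g, LinearMap.trace T H.ρ.V (H.ρ.ρ g) - H.π (t g) ∈ IsLocalRing.maximalIdeal T ^ k) := by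
  classical
  obtain ⟨c, hc⟩ := h65_saturation ι hι p
  set n := k + c with hn
  obtain ⟨hker, htors, hstab, hhecke, hfrob, hinert, hcomm⟩ := hlevel n
  have hppos : 0 < p ^ n := pow_pos hp.pos n
  have hpT : (p : T) ∈ IsLocalRing.maximalIdeal T := by
    have e : (p : T) = algebraMap 𝒪 T (p : 𝒪) := (map_natCast _ _).symm
    rw [e, IsLocalRing.mem_maximalIdeal, mem_nonunits_iff]
    intro hu
    exact hp𝒪 (isUnit_of_map_unit (algebraMap 𝒪 T) _ hu)
  -- induced operators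
  have hex : ∀ z, ∃ f, h91_Ind (qM n) (r n) ι z f := fun z => by
    obtain ⟨F, hF, hq⟩ := h91_exists_end hNS ι (qM n) (r n) (tM n) hhecke hcomm z
    exact h91_Ind_of_end z F hF hq
  -- the level field
  obtain ⟨L₁, hL₁fin, hL₁gal, hL₁⟩ := h31_exists_isLev (qM n) (r n) hppos hstab
  obtain ⟨L₂, hL₂fin, hL₂⟩ := H.ρ.isAdicContinuous k
  obtain ⟨L, hLfin, hLgal, hL₁L, hL₂L, -⟩ := h65_exists_galois_level L₁ L₂ hL₁fin hL₂fin 1
  have hLnor : Normal ℚ L := hLgal.to_normal
  have hLn : h31_IsLev (qM n) (r n) (p ^ n) L := hL₁.mono hL₁L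
  have fact : ∀ g : Γℚ, ∃ (D : CuspForm.heckeAlgebra N 2 (↑S : Set ℕ)) (e : ℕ),
      LinearMap.trace T H.ρ.V (H.ρ.ρ g) - H.π D ∈ IsLocalRing.maximalIdeal T ^ k ∧
        h31_Good ι (qM n) (r n) (p ^ n) g D e := by
    intro g
    obtain ⟨ℓ, A, σ, b, hℓ, hℓS, hA, hσ, hσg⟩ := hcheb L hLfin hLgal g S
    have hℓN : ¬ ℓ ∣ N := fun h => hℓS (hNS ℓ hℓ h)
    have hℓS' : ℓ ∉ (↑S : Set ℕ) := by simpa using hℓS
    have hℓp : ℓ ≠ p := fun h => hℓS (h ▸ hpS)
    have hℓpn : ¬ ℓ ∣ p ^ n := fun h =>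
      hℓp ((Nat.prime_dvd_prime_iff_eq hℓ hp).mp (hℓ.dvd_of_dvd_pow h))
    set tℓ := CuspForm.heckeAlgebra.T hℓ hℓN hℓS' with ht
    have hcyc : h31_Cyc (p ^ n) σ ℓ := fun ζ hζ => h65_frob_root A hℓ hA hσ hℓpn hζ
    refine ⟨Polynomial.aeval tℓ (Polynomial.dickson 1 (ℓ : ℤ) b), ℓ ^ b, ?_, ?_⟩
    · have e1 := h65_trace_frob_pow H.ρ σ (H.π tℓ) ℓ
        (H.charpoly_frob ℓ hℓ hℓN hℓS' A hA σ hσ) b
      have e2 : H.π (Polynomial.aeval tℓ (Polynomial.dickson 1 (ℓ : ℤ) b)) =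
          Polynomial.aeval (H.π tℓ) (Polynomial.dickson 1 (ℓ : ℤ) b) :=
        (Polynomial.aeval_algHom_apply H.π.toIntAlgHom tℓ _).symm
      rw [e2, ← e1]
      exact h65_trace_congr H.ρ k L₂ hL₂ g (σ ^ b) (fun x hx => hσg x (hL₂L hx))
    · exact h31_good_of_agree hLnor hLn hσg
        (h31_good_pow tℓ (tM n ⟨ℓ, hℓ⟩) ℓ σ hcyc (hhecke ℓ hℓ hℓN hℓS')
          (hfrob ℓ hℓ hℓN hℓS' A hA σ hσ) (fun g m => hcomm ⟨ℓ, hℓ⟩ g m) b)
  choose t a htr hgood using fact
  have htorsW : ∀ w : ↥(h91_W (qM n) (r n)), p ^ n • w = 0 := fun w =>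
    Subtype.ext (by rw [AddSubgroup.coe_nsmul]; exact htors _)
  refine ⟨n, h91_act (qM n) (r n) ι hex, a, t, ?_, ?_, ?_, ?_, ?_, htr⟩
  · exact fun z g w => h91_act_comm (qM n) (r n) ι hex z g w
  · intro w
    have hm : a 1 ≡ 1 [MOD p ^ n] := h31_Cyc_modEq hppos (hgood 1).1 (h31_Cyc_one _)
    rw [h65_nsmul_eq_of_modEq hm w (htorsW w), one_smul]
  · intro g h w
    have hm : a (g * h) ≡ a g * a h [MOD p ^ n] :=
      h31_Cyc_modEq hppos (hgood (g * h)).1 (h31_Cyc_mul (hgood g).1 (hgood h).1)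
    rw [h65_nsmul_eq_of_modEq hm w (htorsW w), mul_smul]
  · intro g w
    have h := h91_W_ext (qM n) (r n) (h91_act (qM n) (r n) ι hex (t g))
      (h91_rW (qM n) (r n) g + a g • h91_rW (qM n) (r n) g⁻¹) (fun γ y =>
        (h91_act_gen (qM n) (r n) ι hex (t g) γ y).trans (Subtype.ext ((hgood g).2 γ y)))
    exact congrArg (fun F : ↥(h91_W (qM n) (r n)) →+ ↥(h91_W (qM n) (r n)) => F w) h
  · intro z hz
    have hv : ∀ v : Λ, ∃ w : Λ, ι z v = (p ^ n : ℤ) • w := by
      intro v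
      apply hker
      have h1 := h91_act_gen (qM n) (r n) ι hex z 1 v
      rw [hz] at h1
      have h2 := congrArg (fun w : ↥(h91_W (qM n) (r n)) => (w : M n)) h1
      simp only [h91_gen_coe] at h2
      rw [h31_r_one] at h2
      exact h2.symm
    obtain ⟨y, hy⟩ := hc n z hv
    rw [hy, show n - c = k by omega, zsmul_eq_mul, map_mul, map_intCast]
    push_cast
    exact Ideal.mul_mem_right _ _ (Ideal.pow_mem_pow hpT k)

end main

end Fermat.Agent.S32
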