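import Fermat.Agent.S32.h91_LevelSide
import Fermat.Agent.S32.h48_ChCoreKer
import Fermat.Agent.S32.h21_LevelBasis

/-!
# S32, row R5 (helper91): `V / I V` is a Galois subquotient of a finite power of a finite level

`h91_subquot_of_levels` : in a Hecke–Galois datum `H`, given level structures
`(M n, qM n, r n, tM n)` (`h31_IsLevel`) with finite `M n` and the weak Chebotarev statement,
for every cofinite ideal `I` of `T` there are a level `n`, a finite set `X`, a Galois module `B`,
an injective equivariant map `B → (X → M n)` and a surjective equivariant map `B → V / I V`.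

Proof: the level side `h91_level_side` (Hecke action on the Galois span of `qM n Λ`, elements
`t g`, saturation, trace congruence), the matrix form `h21_level_basis` of `V / I V`, and the
Cayley–Hamilton core `h48_chcore_ker` (helper48).
-/

set_option autoImplicit false
set_option linter.style.haveILetI false

namespace Fermat.Agent.S32

open Fermat.Agent.GAL

local notation "Γℚ" => (AlgebraicClosure ℚ ≃ₐ[ℚ] AlgebraicClosure ℚ)

/-- In a local ring with a finite quotient `T ⧸ I`, a power of the maximal ideal lies in `I`. -/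
theorem h91_exists_pow_le {T : Type} [CommRing T] [IsLocalRing T] (I : Ideal T)
    (hI : Finite (T ⧸ I)) (hItop : I ≠ ⊤) :
    Nonempty (IsLocalRing (T ⧸ I)) ∧ ∃ k : ℕ, IsLocalRing.maximalIdeal T ^ k ≤ I := by
  haveI : Nontrivial (T ⧸ I) := Ideal.Quotient.nontrivial_iff.mpr hItop
  haveI : IsLocalRing (T ⧸ I) :=
    IsLocalRing.of_surjective' (Ideal.Quotient.mk I) Ideal.Quotient.mk_surjective
  refine ⟨⟨inferInstance⟩, ?_⟩
  have hnil : IsNilpotent (Ideal.jacobson (⊥ : Ideal (T ⧸ I))) :=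
    IsArtinianRing.isNilpotent_jacobson_bot
  rw [IsLocalRing.jacobson_eq_maximalIdeal ⊥ bot_ne_top] at hnil
  obtain ⟨k, hk⟩ := hnil
  refine ⟨k, fun x hx => ?_⟩
  have hle : (IsLocalRing.maximalIdeal T).map (Ideal.Quotient.mk I) ≤
      IsLocalRing.maximalIdeal (T ⧸ I) := by
    rw [Ideal.map_le_iff_le_comap]
    intro y hy
    rw [Ideal.mem_comap, IsLocalRing.mem_maximalIdeal, mem_nonunits_iff]
    intro hu
    obtain ⟨z, hz⟩ := hu.exists_right_inv
    obtain ⟨z', rfl⟩ := Ideal.Quotient.mk_surjective z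
    rw [← map_mul, ← map_one (Ideal.Quotient.mk I), Ideal.Quotient.eq] at hz
    have h1 : y * z' - 1 ∈ IsLocalRing.maximalIdeal T := IsLocalRing.le_maximalIdeal hItop hz
    have h2 : y * z' ∈ IsLocalRing.maximalIdeal T := Ideal.mul_mem_right _ _ hy
    have h3 : (1 : T) ∈ IsLocalRing.maximalIdeal T := by
      have := Ideal.sub_mem _ h2 h1
      rwa [sub_sub_cancel] at this
    exact (Ideal.ne_top_iff_one _).mp (IsLocalRing.maximalIdeal.isMaximal T).ne_top h3
  have h4 : Ideal.Quotient.mk I x ∈ (IsLocalRing.maximalIdeal (T ⧸ I)) ^ k := by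
    have : Ideal.Quotient.mk I x ∈ (IsLocalRing.maximalIdeal T ^ k).map (Ideal.Quotient.mk I) :=
      Ideal.mem_map_of_mem _ hx
    rw [Ideal.map_pow] at this
    exact Ideal.pow_right_mono hle k this
  rw [hk] at h4
  exact Ideal.Quotient.eq_zero_iff_mem.mp h4

section main

variable {p : ℕ} {N : ℕ} [NeZero N] {S : Finset ℕ}
  {𝒪 : Type} [CommRing 𝒪] [IsDomain 𝒪] [IsDiscreteValuationRing 𝒪]
  [IsAdicComplete (IsLocalRing.maximalIdeal 𝒪) 𝒪]
  {θ : CuspForm.heckeAlgebra N 2 (↑S : Set ℕ) →+* IsLocalRing.ResidueField 𝒪}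
  {T : Type} [CommRing T] [IsLocalRing T] [IsNoetherianRing T]
  [IsAdicComplete (IsLocalRing.maximalIdeal T) T] [Algebra 𝒪 T] [IsLocalHom (algebraMap 𝒪 T)]
  [Module.Finite 𝒪 T] [Module.Free 𝒪 T]

/-- **`V / I V` is a Galois subquotient of a finite power of a finite level** (abstract level
data). -/
theorem h91_subquot_of_levels (hp : p.Prime) (hp2 : p ≠ 2)
    (hp𝒪 : (p : 𝒪) ∈ IsLocalRing.maximalIdeal 𝒪) (hpS : p ∈ S)
    (hNS : ∀ q : ℕ, q.Prime → q ∣ N → q ∈ S)
    (H : CuspForm.HeckeGaloisRepDatum N (↑S : Set ℕ) 𝒪 θ T)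
    {Λ : Type} [AddCommGroup Λ] [Module.Free ℤ Λ] [Module.Finite ℤ Λ]
    (ι : CuspForm.heckeAlgebra N 2 (↑S : Set ℕ) →+* Module.End ℤ Λ)
    (hι : Function.Injective ι)
    (M : ℕ → Type) [instM : ∀ n, AddCommGroup (M n)] (hfinM : ∀ n, Finite (M n))
    (qM : ∀ n, Λ →+ M n)
    (r : ∀ n, Γℚ →* AddMonoid.End (M n)) (tM : ∀ n, Nat.Primes → M n →+ M n)
    (hlevel : ∀ n : ℕ, h31_IsLevel p N S ι n (qM n) (r n) (tM n)) (hcheb : h65_WCheb)
    (I : Ideal T) (hI : Finite (T ⧸ I)) :
    ∃ (n : ℕ) (X : Type) (_ : Finite X) (B : Type) (_ : AddCommGroup B)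
      (rB : Γℚ →* AddMonoid.End B) (i : B →+ (X → M n))
      (π : B →+ (H.ρ.V ⧸ (I • (⊤ : Submodule T H.ρ.V)))),
      Function.Injective i ∧ (∀ g b x, i (rB g b) x = r n g (i b x)) ∧
      Function.Surjective π ∧ ∀ g b, π (rB g b) = H.ρ.levelAction I g (π b) := by
  classical
  by_cases hItop : I = ⊤
  · -- the trivial case: `V / I V = 0`
    have hsub : Subsingleton (H.ρ.V ⧸ (I • (⊤ : Submodule T H.ρ.V))) := by
      rw [hItop, Submodule.top_smul]
      exact Submodule.Quotient.subsingleton_iff.mpr rfl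
    refine ⟨0, PEmpty, inferInstance, PUnit, inferInstance, 1, 0, 0, ?_, ?_, ?_, ?_⟩
    · intro b b' _
      exact Subsingleton.elim _ _
    · intro g b x
      exact x.elim
    · intro v
      exact ⟨PUnit.unit, Subsingleton.elim _ _⟩
    · intro g b
      exact Subsingleton.elim _ _
  · obtain ⟨⟨hloc⟩, k, hk⟩ := h91_exists_pow_le I hI hItop
    haveI : IsLocalRing (T ⧸ I) := hloc
    have hpT : (p : T) ∈ IsLocalRing.maximalIdeal T := by
      have e : (p : T) = algebraMap 𝒪 T (p : 𝒪) := (map_natCast _ _).symm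
      rw [e, IsLocalRing.mem_maximalIdeal, mem_nonunits_iff]
      intro hu
      exact hp𝒪 (isUnit_of_map_unit (algebraMap 𝒪 T) _ hu)
    -- `2` is a unit
    have h2T : IsUnit (2 : T) := by
      by_contra h
      have h2m : (2 : T) ∈ IsLocalRing.maximalIdeal T := h
      obtain ⟨m, hm⟩ := hp.odd_of_ne_two hp2
      have h1 : (1 : T) = (p : T) - 2 * (m : T) := by
        rw [hm]; push_cast; ring
      have h3 : (1 : T) ∈ IsLocalRing.maximalIdeal T := by
        rw [h1]
        exact Ideal.sub_mem _ hpT (Ideal.mul_mem_right _ _ h2m)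
      exact (Ideal.ne_top_iff_one _).mp (IsLocalRing.maximalIdeal.isMaximal T).ne_top h3
    have h2 : IsUnit (2 : T ⧸ I) := by
      have := h2T.map (Ideal.Quotient.mk I)
      rwa [map_ofNat] at this
    obtain ⟨n, act, a, t, hcomm, ha1, hamul, ht, hkerπ, htr⟩ :=
      h91_level_side hp hp𝒪 hpS hNS H ι hι M qM r tM hlevel hcheb k
    obtain ⟨ρbar, c, hρtr, hρspan, hρc⟩ := h21_level_basis H.ρ H.residual_absIrr I
    haveI : Finite (M n) := hfinM n
    haveI : Finite ↥(h91_W (qM n) (r n)) := inferInstance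
    obtain ⟨X, hX, B, hB, rB, i, π, hi, hieq, hπ, hπeq⟩ :=
      h48_chcore_ker (h91_rW (qM n) (r n)) act hcomm a ha1 hamul t ht h2
        ((Ideal.Quotient.mk I).comp H.π)
        (fun z hz => Ideal.Quotient.eq_zero_iff_mem.mpr (hk (hkerπ z hz))) ρbar
        (fun g => (hρtr g).trans (Ideal.Quotient.eq.mpr (hk (htr g)))) hρspan
    refine ⟨n, X, hX, B, hB, rB, ((h91_W (qM n) (r n)).subtype.compLeft X).comp i,
      c.toAddMonoidHom.comp π, ?_, ?_, ?_, ?_⟩
    · intro b b' hbb'
      apply hi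
      funext x
      apply Subtype.ext
      exact congrFun hbb' x
    · intro g b x
      show ((i (rB g b) x : ↥(h91_W (qM n) (r n))) : M n) = r n g ((i b x : ↥(h91_W (qM n) (r n))) : M n)
      rw [hieq]
      rfl
    · intro v
      obtain ⟨u, hu⟩ := c.surjective v
      obtain ⟨b, hb⟩ := hπ u
      exact ⟨b, by show c (π b) = v; rw [hb, hu]⟩
    · intro g b
      show c (π (rB g b)) = H.ρ.levelAction I g (c (π b))
      rw [hπeq, hρc]

end main

end Fermat.Agent.S32
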